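/-
GATE-B / GB-B5-POINT, lemma (P1) (helper83): **a parabolic Hecke eigenclass over `ℂ` is the period
pair of a normalised eigenform, EXACTLY.**

`X ∈ Hom_par(Γ₀(N), ℂ)`, `X ≠ 0`, `cohGen N ℂ l X = lam l • X` for EVERY prime `l` (`T_l` for
`l ∤ N`, `U_l` for `l ∣ N`).  Then there are a Prelude `IsNormalizedEigenform` `G` of level `Γ₀(N)`
and `c₁ c₂ : ℂ` with `X = periodHomPair N (c₁ • G, c₂ • G)` and `a_l(G) = lam l` for all primes.

Proof.  Eichler–Shimura (`S21`): `X = per(f, g)`, `per` injective and Hecke equivariant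
(`GJ.J2.Lat.periodHomPair_cohGen`), so `f` and `g` are eigenvectors of all `T_l`, `U_l` with the
eigenvalues `lam`.  Multiplicity one for the FULL Hecke algebra (`q`-expansion): such an eigenvector
`h` is `a₁(h) • G` for the normalisation `G` of any nonzero one.
-/
import Mathlib
import Fermat.Agent.GM.End.Endgame

set_option autoImplicit false

open scoped MatrixGroups
open CongruenceSubgroup ModularCurve ModularCurve.Period CuspForm ModularFormClass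

namespace Fermat.Agent.GB.B5.Point

open Fermat.Agent.S16_helper49 Fermat.Agent.GJ.J2.Lat Fermat.Agent.GM.End
open Fermat.Agent.S49_helper65

variable {N : ℕ} [NeZero N]

/-- The normalisation of a nonzero simultaneous eigenvector, with the witness exposed. -/
theorem isNormalizedEigenform_inv_smul (g : CuspForm (Gamma0 N) 2) (hg : g ≠ 0) (θ : ℕ → ℂ)
    (hT : ∀ (ℓ : ℕ) (hℓ : ℓ.Prime) (hℓN : ¬ ℓ ∣ N), CuspForm.heckeTLin 2 hℓ hℓN g = θ ℓ • g)
    (hU : ∀ (q : ℕ) (_ : q.Prime) (hqN : q ∣ N), CuspForm.heckeULin 2 hqN g = θ q • g) :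
    qCoeff g 1 ≠ 0 ∧ ((qCoeff g 1)⁻¹ • g : CuspForm (Gamma0 N) 2).IsNormalizedEigenform ∧
      ∀ p : ℕ, p.Prime → qCoeff ((qCoeff g 1)⁻¹ • g : CuspForm (Gamma0 N) 2) p = θ p := by
  have hb1 : qCoeff g 1 ≠ 0 := fun h1 =>
    hg (cusp_eq_zero_of_qCoeff g (qCoeff_eq_zero_of_one g θ hT hU h1))
  set f : CuspForm (Gamma0 N) 2 := (qCoeff g 1)⁻¹ • g with hf
  have hc : ∀ n, qCoeff f n = (qCoeff g 1)⁻¹ * qCoeff g n := fun n => qCoeff_smul_cusp _ g n
  have hc1 : qCoeff f 1 = 1 := by rw [hc, inv_mul_cancel₀ hb1]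
  have hrel : ∀ {p : ℕ} (_ : p.Prime) (n : ℕ),
      qCoeff f (p * n) + levelChar N p * (if p ∣ n then qCoeff f (n / p) else 0) =
        θ p * qCoeff f n := by
    intro p hp n
    have := qCoeff_relation_of_eigenvector g θ hT hU hp n
    simp only [hc]
    by_cases hd : p ∣ n
    · simp only [if_pos hd] at this ⊢
      linear_combination (qCoeff g 1)⁻¹ * this
    · simp only [if_neg hd] at this ⊢
      linear_combination (qCoeff g 1)⁻¹ * this
  have hθ : ∀ p : ℕ, p.Prime → qCoeff f p = θ p := by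
    intro p hp
    have := hrel hp 1
    rw [mul_one, if_neg (by simpa using hp.ne_one), mul_zero, add_zero, hc1, mul_one] at this
    exact this
  have heig : FormalHecke.IsEigensystem (levelChar N) (fun n => qCoeff f n) := by
    refine ⟨hc1, fun ℓ hℓ n => ?_⟩
    simp only
    rw [hrel hℓ n, hθ ℓ hℓ]
  obtain ⟨_, hmul, hpow⟩ := isRecursive_of_isEigensystem heig
  refine ⟨hb1, ⟨hc1, hmul, ?_, ?_⟩, hθ⟩
  · intro p r hp hpN
    have := hpow p r hp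
    simp only [levelChar, if_neg hpN] at this
    exact this
  · intro p r hp hpN
    have := hpow p r hp
    simp only [levelChar, if_pos hpN, zero_mul, sub_zero] at this
    exact this

/-- **Multiplicity one for the full Hecke algebra**: two simultaneous eigenvectors of all `T_ℓ`,
`U_q` with the same eigenvalues are proportional: `h = a₁(h) • (a₁(g)⁻¹ • g)`. -/
theorem eq_smul_of_eigenvector (g h : CuspForm (Gamma0 N) 2) (hg : g ≠ 0) (θ : ℕ → ℂ)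
    (hT : ∀ (ℓ : ℕ) (hℓ : ℓ.Prime) (hℓN : ¬ ℓ ∣ N), CuspForm.heckeTLin 2 hℓ hℓN g = θ ℓ • g)
    (hU : ∀ (q : ℕ) (_ : q.Prime) (hqN : q ∣ N), CuspForm.heckeULin 2 hqN g = θ q • g)
    (hT' : ∀ (ℓ : ℕ) (hℓ : ℓ.Prime) (hℓN : ¬ ℓ ∣ N), CuspForm.heckeTLin 2 hℓ hℓN h = θ ℓ • h)
    (hU' : ∀ (q : ℕ) (_ : q.Prime) (hqN : q ∣ N), CuspForm.heckeULin 2 hqN h = θ q • h) :
    h = qCoeff h 1 • ((qCoeff g 1)⁻¹ • g : CuspForm (Gamma0 N) 2) := by
  have hb1 : qCoeff g 1 ≠ 0 := fun h1 =>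
    hg (cusp_eq_zero_of_qCoeff g (qCoeff_eq_zero_of_one g θ hT hU h1))
  set c : ℂ := qCoeff h 1 * (qCoeff g 1)⁻¹ with hc
  have hd : h - c • g = 0 := by
    apply cusp_eq_zero_of_qCoeff
    apply qCoeff_eq_zero_of_one (h - c • g) θ
    · intro ℓ hℓ hℓN
      rw [map_sub, map_smul, hT ℓ hℓ hℓN, hT' ℓ hℓ hℓN, smul_sub, smul_comm]
    · intro q hq hqN
      rw [map_sub, map_smul, hU q hq hqN, hU' q hq hqN, smul_sub, smul_comm]
    · have e : h - c • g = h + (-c) • g := by rw [neg_smul, sub_eq_add_neg]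
      have e2 : ∀ (a b : CuspForm (Gamma0 N) 2) (n : ℕ),
          qCoeff (a + b : CuspForm (Gamma0 N) 2) n = qCoeff a n + qCoeff b n := by
        intro a b n
        unfold qCoeff
        have h1 : (⇑(a + b : CuspForm (Gamma0 N) 2) : UpperHalfPlane → ℂ) = ⇑a + ⇑b := rfl
        rw [h1, ModularForm.qExpansion_add one_pos (one_mem_strictPeriods_Gamma0 N) a b]
        simp
      rw [e, e2, qCoeff_smul_cusp, hc]
      field_simp
      ring
  rw [smul_smul, ← hc]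
  exact sub_eq_zero.mp hd

/-- **(P1)**: a nonzero parabolic eigenclass of ALL `cohGen N ℂ l` is the period pair
`per(c₁ • G, c₂ • G)` of a normalised eigenform `G` with `a_l(G)` the eigenvalues. -/
theorem exists_eigenform_of_cohGen_eigen (X : Additive (Gamma0 N) →+ ℂ)
    (hXpar : X ∈ parabolicHoms ℂ (Gamma0 N) ℂ) (hX0 : X ≠ 0) (lam : Nat.Primes → ℂ)
    (hX : ∀ l : Nat.Primes, cohGen N ℂ l X = lam l • X) :
    ∃ (G : CuspForm (Gamma0 N) 2) (c₁ c₂ : ℂ), G.IsNormalizedEigenform ∧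
      X = periodHomPair N (c₁ • G, c₂ • G) ∧ ∀ l : Nat.Primes, qCoeff G (l : ℕ) = lam l := by
  classical
  have hXpar' := hXpar
  rw [← (Fermat.Agent.S21.result N).2] at hXpar'
  obtain ⟨⟨f₁, f₂⟩, hf⟩ := hXpar'
  have hinj := (Fermat.Agent.S21.result N).1
  have heig : ∀ l : Nat.Primes, formOp N l f₁ = lam l • f₁ ∧ formOp N l f₂ = lam l • f₂ := by
    intro l
    have h1 : periodHomPair N (formOp N l f₁, formOp N l f₂)
        = periodHomPair N (lam l • (f₁, f₂)) := by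
      rw [periodHomPair_formOp, hf, map_smul, hf]
      exact hX l
    have h2 := hinj h1
    rw [Prod.smul_mk, Prod.mk.injEq] at h2
    exact h2
  let θ : ℕ → ℂ := fun n => if h : n.Prime then lam ⟨n, h⟩ else 0
  have hθ : ∀ (ℓ : ℕ) (hℓ : ℓ.Prime), θ ℓ = lam ⟨ℓ, hℓ⟩ := fun ℓ hℓ => dif_pos hℓ
  have hT : ∀ f : CuspForm (Gamma0 N) 2, (∀ l : Nat.Primes, formOp N l f = lam l • f) →
      ∀ (ℓ : ℕ) (hℓ : ℓ.Prime) (hℓN : ¬ ℓ ∣ N), CuspForm.heckeTLin 2 hℓ hℓN f = θ ℓ • f := by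
    intro f hfe ℓ hℓ hℓN
    have h := hfe ⟨ℓ, hℓ⟩
    rw [formOp_of_not_dvd N hℓ hℓN] at h
    rw [h, hθ ℓ hℓ]
  have hU : ∀ f : CuspForm (Gamma0 N) 2, (∀ l : Nat.Primes, formOp N l f = lam l • f) →
      ∀ (q : ℕ) (_ : q.Prime) (hqN : q ∣ N), CuspForm.heckeULin 2 hqN f = θ q • f := by
    intro f hfe q hq hqN
    have h := hfe ⟨q, hq⟩
    rw [formOp_of_dvd N hq hqN] at h
    rw [h, hθ q hq]
  have h₁ := fun l => (heig l).1
  have h₂ := fun l => (heig l).2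
  have hne : f₁ ≠ 0 ∨ f₂ ≠ 0 := by
    by_contra hcon
    push Not at hcon
    apply hX0
    rw [← hf, hcon.1, hcon.2]
    exact map_zero _
  obtain ⟨f₀, hf₀, hf₀eig⟩ : ∃ f₀ : CuspForm (Gamma0 N) 2, f₀ ≠ 0 ∧
      ∀ l : Nat.Primes, formOp N l f₀ = lam l • f₀ := by
    rcases hne with h | h
    · exact ⟨f₁, h, h₁⟩
    · exact ⟨f₂, h, h₂⟩
  obtain ⟨-, hG, hGθ⟩ := isNormalizedEigenform_inv_smul f₀ hf₀ θ (hT f₀ hf₀eig) (hU f₀ hf₀eig)
  refine ⟨(qCoeff f₀ 1)⁻¹ • f₀, qCoeff f₁ 1, qCoeff f₂ 1, hG, ?_, fun l => ?_⟩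
  · rw [← hf, ← eq_smul_of_eigenvector f₀ f₁ hf₀ θ (hT f₀ hf₀eig) (hU f₀ hf₀eig) (hT f₁ h₁)
      (hU f₁ h₁), ← eq_smul_of_eigenvector f₀ f₂ hf₀ θ (hT f₀ hf₀eig) (hU f₀ hf₀eig) (hT f₂ h₂)
      (hU f₂ h₂)]
  · rw [hGθ l l.2, hθ l l.2]
    rfl

/-- variant of (P1) with eigenvalues indexed by `ℕ` (values off the primes irrelevant). -/
theorem exists_eigenform_of_cohGen_eigen' (X : Additive (Gamma0 N) →+ ℂ)
    (hXpar : X ∈ parabolicHoms ℂ (Gamma0 N) ℂ) (hX0 : X ≠ 0) (lam : ℕ → ℂ)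
    (hX : ∀ l : Nat.Primes, cohGen N ℂ l X = lam (l : ℕ) • X) :
    ∃ (G : CuspForm (Gamma0 N) 2) (c₁ c₂ : ℂ), G.IsNormalizedEigenform ∧
      X = periodHomPair N (c₁ • G, c₂ • G) ∧ ∀ l : ℕ, l.Prime → qCoeff G l = lam l := by
  obtain ⟨G, c₁, c₂, hG, hXG, hl⟩ :=
    exists_eigenform_of_cohGen_eigen X hXpar hX0 (fun l => lam (l : ℕ)) hX
  exact ⟨G, c₁, c₂, hG, hXG, fun l hl' => hl ⟨l, hl'⟩⟩

end Fermat.Agent.GB.B5.Point
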