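/-
GATE-B / GB-B5-POINT, Part B (helper83): **the descended twist chain of a Hecke eigenclass on
`Γ_H(N)` is the period pair of a normalised eigenform of level `chainLevel N L`, EXACTLY.**

`θ : (ZMod N)ˣ →* Δ`, `L` an admissible list of twisting data with pairwise coprime primes and
NON-TRIVIAL characters (`∑ x, d.ψ x = 0`), `φ ∈ Hom_par(Γ_H(N), ℂ)` an eigenvector of the
`Γ₀(N)`-conjugations with character `∏ ν`, of all `T_ℓ` (`ℓ ∤ N`) and of all `U_q` (`q ∣ N` prime,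
`q` not a twisting prime).  Then `X := chainD φ` is an eigenvector of EVERY `cohGen N' ℂ l`
(helper97 `chainD_TH`, `chainD_UH`; helper65 `cohU_chainD_eq_zero` at the twisting primes), hence by
(P1) `X = periodHomPair N' (c₁ • G, c₂ • G)` with `G` a normalised eigenform,
`ψ_L(ℓ) a_ℓ(G) = μ_ℓ` and `a_r(G) = 0` at the twisting primes.
-/
import Mathlib
import Fermat.Agent.GB.B5.Point.Period
import Fermat.Agent.GB.B4.Twist.ChainInj
import Fermat.Agent.GB.B5.Betti.UHChain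

set_option autoImplicit false

open scoped MatrixGroups
open CongruenceSubgroup Matrix Matrix.SpecialLinearGroup ModularCurve ModularCurve.Period
open Fermat.Agent.S16_helper49 Fermat.Agent.GM.B
open Fermat.Agent.GB.B3 Fermat.Agent.GB.B3.EisGamma0 Fermat.Agent.GB.B3.GamH
open Fermat.Agent.GB.B4.Twist Fermat.Agent.GB.B4.Twist.RPsi Fermat.Agent.GB.B4.Twist.Chain
open Fermat.Agent.GB.B4.Twist.ChainD Fermat.Agent.GB.B4.Twist.ChainInj
open Fermat.Agent.GB.B5.Betti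
open ModularFormClass CuspForm

namespace Fermat.Agent.GB.B5.Point

variable {R : Type*} [CommRing R] {Δ : Type} [CommGroup Δ] [Fintype Δ]
  {A : Type*} [AddCommGroup A] [Module R A]

/-- `chainD` commutes with the scalars -/
theorem chainD_smul (N : ℕ) (θ : (ZMod N)ˣ →* Δ) (L : List (TwDatum R Δ)) (h : Adm N θ L)
    (rep : Δ → Gamma0 (chainLevel N L)) (hrep : ∀ δ, chi (chainθ N θ L) (rep δ) = δ)
    (c : R) (φ : Additive (GammaH θ) →+ A) :
    chainD N θ L h rep hrep (c • φ) = c • chainD N θ L h rep hrep φ := by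
  rw [chainD_apply, chainD_apply, map_smul]
  exact op_smul _ _ _

/-- a prime dividing `chainLevel N L` which is not one of the twisting primes divides `N` -/
theorem dvd_base_of_dvd_chainLevel {N : ℕ} {L : List (TwDatum R Δ)} {q : ℕ} (hq : q.Prime)
    (hqL : ∀ d ∈ L, d.r ≠ q) (h : q ∣ chainLevel N L) : q ∣ N := by
  induction L generalizing N with
  | nil => exact h
  | cons d L ih =>
    rw [chainLevel_cons] at h
    have h1 := ih (fun e he => hqL e (List.mem_cons_of_mem d he)) h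
    rcases hq.dvd_mul.mp h1 with h2 | h2
    · exact h2
    · exact absurd ((Nat.prime_dvd_prime_iff_eq hq d.hr.out).mp h2).symm
        (hqL d (List.mem_cons_self ..))

/-! ### the eigenvalues of the descended chain -/

section Main

variable {N : ℕ} [NeZero N] {Δ : Type} [CommGroup Δ] [Fintype Δ]

/-- the eigenvalue of `cohGen N' ℂ l` on `chainD φ`: `0` at the twisting primes,
`ψ_L(l)⁻¹ μ_l` elsewhere -/
noncomputable def lamOf (L : List (TwDatum ℂ Δ)) (μ : ℕ → ℂ) (l : ℕ) : ℂ :=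
  open scoped Classical in
  if ∃ d ∈ L, d.r = l then 0 else (chainPsi L l)⁻¹ * μ l

theorem lamOf_of_mem {L : List (TwDatum ℂ Δ)} (μ : ℕ → ℂ) {d : TwDatum ℂ Δ} (hd : d ∈ L) :
    lamOf L μ d.r = 0 := by
  unfold lamOf
  rw [if_pos ⟨d, hd, rfl⟩]

theorem lamOf_of_not_mem {L : List (TwDatum ℂ Δ)} (μ : ℕ → ℂ) {l : ℕ} (hl : ∀ d ∈ L, d.r ≠ l) :
    lamOf L μ l = (chainPsi L l)⁻¹ * μ l := by
  unfold lamOf
  rw [if_neg]
  rintro ⟨d, hd, hdl⟩
  exact hl d hd hdl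

theorem chainPsi_mul_lamOf {L : List (TwDatum ℂ Δ)} (μ : ℕ → ℂ) {l : ℕ} (hlp : l.Prime)
    (hl : ∀ d ∈ L, d.r ≠ l) : chainPsi L l * lamOf L μ l = μ l := by
  rw [lamOf_of_not_mem μ hl, ← mul_assoc, mul_inv_cancel₀, one_mul]
  refine (isUnit_chainPsi L l fun d hd => ?_).ne_zero
  exact (Nat.coprime_primes hlp d.hr.out).mpr (fun h => hl d hd h.symm)

/-- local instance (Prop-valued class) -/
local instance factPrimeOfPrimesB5 (l : Nat.Primes) : Fact (l : ℕ).Prime := ⟨l.2⟩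

/-- **`chainD φ` is an eigenvector of every `cohGen N' ℂ l`.** -/
theorem cohGen_chainD (θ : (ZMod N)ˣ →* Δ) (L : List (TwDatum ℂ Δ)) (h : Adm N θ L)
    [NeZero (chainLevel N L)]
    (rep : Δ → Gamma0 (chainLevel N L)) (hrep : ∀ δ, chi (chainθ N θ L) (rep δ) = δ)
    (hL : L.Pairwise (fun d e => Nat.Coprime d.r e.r))
    (hsum : ∀ d ∈ L, ∑ x : ZMod d.r, d.ψ x = 0)
    (φ : Additive (GammaH θ) →+ ℂ) (μ : ℕ → ℂ)
    (hT : ∀ (ℓ : ℕ) [Fact ℓ.Prime] (hℓ : ¬ ℓ ∣ N), TH θ ℂ hℓ φ = μ ℓ • φ)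
    (hU : ∀ (q : ℕ) [NeZero q] (hqN : q ∣ N), q.Prime → (∀ d ∈ L, d.r ≠ q) →
      UH θ ℂ hqN φ = μ q • φ)
    (l : Nat.Primes) :
    cohGen (chainLevel N L) ℂ l (chainD N θ L h rep hrep φ)
      = lamOf L μ (l : ℕ) • chainD N θ L h rep hrep φ := by
  classical
  obtain ⟨l, hlp⟩ := l
  haveI : Fact l.Prime := ⟨hlp⟩
  haveI : NeZero l := ⟨hlp.ne_zero⟩
  by_cases hmem : ∃ d ∈ L, d.r = l
  · obtain ⟨d, hd, rfl⟩ := hmem
    have hdvd : d.r ∣ chainLevel N L := (h d hd).1.trans (dvd_chainLevel N L)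
    rw [cohGen_of_dvd (chainLevel N L) ℂ ⟨d.r, hlp⟩ hdvd, lamOf_of_mem μ hd, zero_smul]
    exact cohU_chainD_eq_zero N θ L h rep hrep hL d hd (hsum d hd) hdvd φ
  · push Not at hmem
    have hcop : ∀ d ∈ L, Nat.Coprime l d.r := fun d hd =>
      (Nat.coprime_primes hlp d.hr.out).mpr (fun h' => hmem d hd h'.symm)
    have hne : chainPsi L l ≠ 0 := (isUnit_chainPsi L l hcop).ne_zero
    rw [lamOf_of_not_mem μ hmem]
    by_cases hdvd : l ∣ chainLevel N L
    · have hlN : l ∣ N := dvd_base_of_dvd_chainLevel hlp hmem hdvd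
      rw [cohGen_of_dvd (chainLevel N L) ℂ ⟨l, hlp⟩ hdvd]
      have e := chainD_UH N θ L h rep hrep hlN hcop φ
      rw [hU l hlN hlp hmem, chainD_smul] at e
      rw [mul_smul, e, smul_smul, inv_mul_cancel₀ hne, one_smul]
    · rw [cohGen_of_not_dvd (chainLevel N L) ℂ ⟨l, hlp⟩ hdvd]
      have e := chainD_TH N θ L h rep hrep hdvd φ
      rw [hT l (not_dvd_base hdvd), chainD_smul] at e
      rw [mul_smul, e, smul_smul, inv_mul_cancel₀ hne, one_smul]

/-- **Part B, core form**: the descended chain of an eigenclass is the period pair of a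
normalised eigenform. -/
theorem exists_eigenform_of_chainD (θ : (ZMod N)ˣ →* Δ) (L : List (TwDatum ℂ Δ)) (h : Adm N θ L)
    [NeZero (chainLevel N L)]
    (rep : Δ → Gamma0 (chainLevel N L)) (hrep : ∀ δ, chi (chainθ N θ L) (rep δ) = δ)
    (hL : L.Pairwise (fun d e => Nat.Coprime d.r e.r))
    (hsum : ∀ d ∈ L, ∑ x : ZMod d.r, d.ψ x = 0)
    (φ : Additive (GammaH θ) →+ ℂ) (hφpar : IsParabolicHom (GammaH θ) φ)
    (hX0 : chainD N θ L h rep hrep φ ≠ 0) (μ : ℕ → ℂ)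
    (hT : ∀ (ℓ : ℕ) [Fact ℓ.Prime] (hℓ : ¬ ℓ ∣ N), TH θ ℂ hℓ φ = μ ℓ • φ)
    (hU : ∀ (q : ℕ) [NeZero q] (hqN : q ∣ N), q.Prime → (∀ d ∈ L, d.r ≠ q) →
      UH θ ℂ hqN φ = μ q • φ) :
    ∃ (G : CuspForm (Gamma0 (chainLevel N L)) 2) (c₁ c₂ : ℂ), G.IsNormalizedEigenform ∧
      chainD N θ L h rep hrep φ = periodHomPair (chainLevel N L) (c₁ • G, c₂ • G) ∧
      (∀ l : ℕ, l.Prime → (∀ d ∈ L, d.r ≠ l) → chainPsi L l * qCoeff G l = μ l) ∧
      (∀ d ∈ L, qCoeff G d.r = 0) := by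
  have hpar : chainD N θ L h rep hrep φ ∈ parabolicHoms ℂ (Gamma0 (chainLevel N L)) ℂ :=
    (mem_parabolicHoms_iff (R := ℂ)).mpr (chainD_par N θ L h rep hrep φ hφpar)
  obtain ⟨G, c₁, c₂, hG, hXG, hlam⟩ :=
    exists_eigenform_of_cohGen_eigen' (chainD N θ L h rep hrep φ) hpar hX0 (lamOf L μ)
      (cohGen_chainD θ L h rep hrep hL hsum φ μ hT hU)
  refine ⟨G, c₁, c₂, hG, hXG, fun l hlp hl => ?_, fun d hd => ?_⟩
  · rw [hlam l hlp, chainPsi_mul_lamOf μ hlp hl]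
  · rw [hlam d.r d.hr.out, lamOf_of_mem μ hd]

end Main

end Fermat.Agent.GB.B5.Point
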