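/-
GATE-B / GB-B5-POINT, assembly, auxiliary file (helper83).

* `exists_char_of_diaH_eigen` : a nonzero simultaneous eigenvector of the diamonds has a
  character `E : Δ →* ℂˣ` (for `θ` surjective);
* `invStable_of_local`, `invStableG_of_local` : the kernel stability `InvStable` / `InvStableG` of
  helper65 / helper8 from the local product structure (`θloc`, `pr`, `hpr`, `hprod`) of helper10's
  `L6Loc`;
* list bookkeeping for the sub-list of the primes where the nebentypus is not trivial.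
-/
import Mathlib
import Fermat.Agent.GB.B4.Twist.L6Loc
import Fermat.Agent.GB.B4.Twist.DiaRep
import Fermat.Agent.GB.B4.Twist.ChainD
import Fermat.Agent.GB.B5.Depl.B5Core

set_option autoImplicit false
set_option linter.unusedSectionVars false

open scoped MatrixGroups
open CongruenceSubgroup Matrix Matrix.SpecialLinearGroup ModularCurve.Period
open Fermat.Agent.S16_helper49 Fermat.Agent.GM.B
open Fermat.Agent.GB.B3 Fermat.Agent.GB.B3.EisGamma0 Fermat.Agent.GB.B3.GamH
open Fermat.Agent.GB.B4.Twist Fermat.Agent.GB.B4.Twist.RPsi Fermat.Agent.GB.B4.Twist.Chain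
open Fermat.Agent.GB.B4.Twist.ChainD Fermat.Agent.GB.B4.Twist.L6Loc
open Fermat.Agent.GB.B4.Twist.DiaRep
open Fermat.Agent.GB.B5.Betti Fermat.Agent.GB.B5.Depl

namespace Fermat.Agent.GB.B5.Point

/-! ### the character of a diamond eigenvector -/

section Char

variable {N : ℕ} [NeZero N] {Δ : Type} [CommGroup Δ] (θ : (ZMod N)ˣ →* Δ)

/-- **the nebentypus**: a nonzero simultaneous eigenvector of the diamond operators has a
character. -/
theorem exists_char_of_diaH_eigen (hθ : Function.Surjective θ)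
    (φ : Additive (GammaH θ) →+ ℂ) (hφ0 : φ ≠ 0)
    (h : ∀ d : Gamma0 N, ∃ c : ℂ, diaH θ ℂ d φ = c • φ) :
    ∃ E : Δ →* ℂˣ, ∀ d : Gamma0 N, diaH θ ℂ d φ = ((E (chi θ d) : ℂˣ) : ℂ) • φ := by
  classical
  choose c hc using h
  have huniq : ∀ a b : ℂ, a • φ = b • φ → a = b := by
    intro a b hab
    have : (a - b) • φ = 0 := by rw [sub_smul, hab, sub_self]
    rcases smul_eq_zero.mp this with h' | h'
    · exact sub_eq_zero.mp h'
    · exact absurd h' hφ0
  have hcongr : ∀ d d' : Gamma0 N, chi θ d = chi θ d' → c d = c d' := by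
    intro d d' hdd
    apply huniq
    rw [← hc, ← hc]
    exact diaH_congr θ d d' hdd φ
  have hone : ∀ d : Gamma0 N, chi θ d = 1 → c d = 1 := by
    intro d hd
    apply huniq
    rw [← hc, one_smul]
    exact diaH_of_ker θ d hd φ
  have hmul : ∀ d d' : Gamma0 N, c (d' * d) = c d' * c d := by
    intro d d'
    apply huniq
    rw [← hc, diaH_mul, hc d']
    have e : diaH θ ℂ d (c d' • φ) = c d' • diaH θ ℂ d φ := ChainD.op_smul _ _ _
    rw [e, hc d, smul_smul]
  let f : Δ →* ℂ :=
    { toFun := fun δ => c (sec θ hθ δ)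
      map_one' := hone _ (chi_sec θ hθ 1)
      map_mul' := by
        intro δ δ'
        show c (sec θ hθ (δ * δ')) = c (sec θ hθ δ) * c (sec θ hθ δ')
        rw [← hmul]
        exact hcongr _ _ (by rw [chi_sec, map_mul, chi_sec, chi_sec]) }
  refine ⟨f.toHomUnits, fun d => ?_⟩
  rw [hc d, MonoidHom.coe_toHomUnits]
  show c d • φ = c (sec θ hθ (chi θ d)) • φ
  rw [hcongr d (sec θ hθ (chi θ d)) (by rw [chi_sec])]

end Char

/-! ### kernel stability from the local product structure -/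

section Local

variable {N : ℕ} {Δ : Type} [CommGroup Δ] (θ : (ZMod N)ˣ →* Δ)
  (L : List ℕ) (hdvd : ∀ r ∈ L, r ∣ N)
  (θloc : (r : ℕ) → (ZMod r)ˣ →* Δ) (pr : ℕ → Δ →* Δ)
  (hpr : ∀ r ∈ L, ∀ (h : r ∣ N) (u : (ZMod N)ˣ), pr r (θ u) = θloc r (ZMod.unitsMap h u))
  (hprod : ∀ u : (ZMod N)ˣ, θ u = (L.map fun r => pr r (θ u)).prod)

include hdvd hpr hprod in
/-- `θ u = 1` iff all the local components are trivial -/
theorem theta_eq_one_iff (u : (ZMod N)ˣ) :
    θ u = 1 ↔ ∀ r ∈ L, ∀ h : r ∣ N, θloc r (ZMod.unitsMap h u) = 1 := by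
  constructor
  · intro hu r hr h
    rw [← hpr r hr h u, hu, map_one]
  · intro hall
    rw [hprod u]
    refine List.prod_eq_one ?_
    intro x hx
    obtain ⟨r, hr, rfl⟩ := List.mem_map.mp hx
    rw [hpr r hr (hdvd r hr) u]
    exact hall r hr (hdvd r hr)

include hdvd hpr hprod in
/-- **`InvStableG` from the local product structure** -/
theorem invStableG_of_local (r₀ Nd : ℕ) (hNd : ∀ r ∈ L, r ≠ r₀ → r ∣ Nd) :
    InvStableG Nd r₀ θ := by
  intro hd hr u v hu h1 h2
  rw [theta_eq_one_iff θ L hdvd θloc pr hpr hprod] at hu ⊢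
  intro r hrL h
  by_cases hrr : r = r₀
  · subst hrr
    have e : ZMod.unitsMap h v = (ZMod.unitsMap h u)⁻¹ := eq_inv_of_mul_eq_one_left h2
    rw [e, map_inv, hu r hrL h, inv_one]
  · have hrd : r ∣ Nd := hNd r hrL hrr
    have e : ∀ w : (ZMod N)ˣ, ZMod.unitsMap h w = ZMod.unitsMap hrd (ZMod.unitsMap hd w) := by
      intro w
      have := DFunLike.congr_fun (ZMod.unitsMap_comp hrd hd) w
      rw [MonoidHom.comp_apply] at this
      exact this.symm
    rw [e v, h1, ← e u]
    exact hu r hrL h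

end Local

/-! ### products over the list of ramified primes -/

section Lists

variable {N : ℕ} {Δ : Type} [CommGroup Δ] (θ : (ZMod N)ˣ →* Δ)
  (L : List ℕ) (hnd : L.Nodup) (pr : ℕ → Δ →* Δ)
  (hprod : ∀ u : (ZMod N)ˣ, θ u = (L.map fun r => pr r (θ u)).prod)

include hnd hprod in
/-- a character which is trivial on the components outside a sub-list `L₀` of `L` is the product
of its components on `L₀` -/
theorem char_eq_prod_sublist {G : Type*} [CommGroup G] (F : Δ →* G) (L₀ : List ℕ)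
    (hnd₀ : L₀.Nodup) (hsub : ∀ r ∈ L₀, r ∈ L) (u : (ZMod N)ˣ)
    (htriv : ∀ r ∈ L, r ∉ L₀ → F (pr r (θ u)) = 1) :
    (L₀.map fun r => F (pr r (θ u))).prod = F (θ u) := by
  classical
  conv_rhs => rw [hprod u, map_list_prod, List.map_map]
  have e1 : ((L.map ((⇑F) ∘ fun r => pr r (θ u))).prod : G)
      = ∏ r ∈ L.toFinset, F (pr r (θ u)) := by
    rw [List.prod_toFinset _ hnd]
    rfl
  have e2 : (L₀.map fun r => F (pr r (θ u))).prod = ∏ r ∈ L₀.toFinset, F (pr r (θ u)) := by
    rw [List.prod_toFinset _ hnd₀]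
  rw [e1, e2]
  refine Finset.prod_subset ?_ ?_
  · intro r hr
    rw [List.mem_toFinset] at hr ⊢
    exact hsub r hr
  · intro r hr hr0
    rw [List.mem_toFinset] at hr hr0
    exact htriv r hr hr0

end Lists

section DatumProducts

variable {Δ : Type} [CommGroup Δ] {K : Type*} [CommRing K]
  (θloc : (r : ℕ) → (ZMod r)ˣ →* Δ) (pr : ℕ → Δ →* Δ) (ε : Δ →* Kˣ)

/-- the product of the `ν` of a `datumList`, evaluated -/
theorem prod_ν_datumList (M : List ℕ) (hM : ∀ r ∈ M, r.Prime) (x : Δ) :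
    ((datumList θloc pr ε M hM).map (fun d => d.ν)).prod x
      = (M.map fun r => ε (pr r x)).prod := by
  induction M with
  | nil => simp
  | cons r M ih =>
    rw [datumList_cons, List.map_cons, List.prod_cons, MonoidHom.mul_apply,
      ih (fun s hs => hM s (List.mem_cons_of_mem r hs)), List.map_cons, List.prod_cons]
    rfl

variable {N : ℕ} (θ : (ZMod N)ˣ →* Δ)

/-- the product of the `ψ` of a `datumList` at a unit `u ≡ ℓ` -/
theorem chainPsi_datumList (M : List ℕ) (hM : ∀ r ∈ M, r.Prime) (hdvd : ∀ r ∈ M, r ∣ N)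
    (hpr : ∀ r ∈ M, ∀ (h : r ∣ N) (u : (ZMod N)ˣ), pr r (θ u) = θloc r (ZMod.unitsMap h u))
    (ℓ : ℕ) (u : (ZMod N)ˣ) (hu : (u : ZMod N) = (ℓ : ZMod N)) :
    chainPsi (datumList θloc pr ε M hM) ℓ
      = (((M.map fun r => sqrtChar ε (pr r (θ u))).prod : Kˣ) : K) := by
  induction M with
  | nil => simp
  | cons r M ih =>
    have hrN : r ∣ N := hdvd r (List.mem_cons_self ..)
    rw [datumList_cons, chainPsi_cons,
      ih (fun s hs => hM s (List.mem_cons_of_mem r hs))
        (fun s hs => hdvd s (List.mem_cons_of_mem r hs))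
        (fun s hs => hpr s (List.mem_cons_of_mem r hs)),
      List.map_cons, List.prod_cons, Units.val_mul]
    congr 1
    have h1 : ((ℓ : ℕ) : ZMod r) = ((ZMod.unitsMap hrN u : (ZMod r)ˣ) : ZMod r) := by
      rw [← cast_unit_eq hrN u, hu, ZMod.cast_natCast hrN]
    show (datum θloc pr ε r (hM r (List.mem_cons_self ..))).ψ ((ℓ : ℕ) : ZMod r) = _
    rw [h1, datum_ψ_coe, hpr r (List.mem_cons_self ..) hrN u]

end DatumProducts

end Fermat.Agent.GB.B5.Point
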