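/-
GATE-B / GB-B5-POINT, Part A (helper83): **from a characteristic-zero point of the twisted Hecke
algebra to a simultaneous eigenclass in `Hom_par(Γ_H(N), ℂ)`** (Deligne–Serre).

* `exists_eigenvector_of_point` (abstract): `T` commutative, integral over `ℤ`, acting on a finite
  dimensional `ℂ`-space `V`; `χ : T →+* D` (`D` a domain of characteristic `0`) vanishing on the
  annihilator of a stable subspace `W₁`.  Then there are an INJECTIVE `ι : χ.range →+* ℂ` and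
  `g ∈ W₁`, `g ≠ 0`, with `t • g = ι (χ t) • g` for all `t`.
* `exists_eigenclass_of_point` (the frame of helper44's `TwFinal`, coefficients `ℂ`):
  `tw : heckeAlgebra N' 2 S →+* End_ℂ (Hom_par(Γ_H(N), ℂ))` with `tw (T_ℓ) = ⟨dℓ ℓ⟩ ∘ T_ℓ`, a point
  `χ`, a subspace `W₁` stable under the diamonds, the `T_ℓ` (`ℓ ∤ N`) and the `U_q` (`q ∣ N`) with
  `(∀ w ∈ W₁, tw t w = 0) → χ t = 0`.  Then there is `φ ∈ W₁`, `φ ≠ 0`, a simultaneous eigenvector
  of ALL diamonds, `T_ℓ`, `U_q`, with `tw t φ = ι (χ t) • φ`.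

`W₁` is the handle by which the consumer pins the nebentypus of `φ` through a `ℤ`-linear condition
(e.g. `W₁ = ker (∑_{δ ∈ Δ_r} ⟨δ⟩)`: then the character of `φ` is not trivial on `Δ_r`), since `ι` is
only defined on the finite `ℤ`-algebra `χ.range`.
-/
import Mathlib
import Fermat.Agent.GB.B7.Point
import Fermat.Agent.GB.B4.Twist.TwFinal
import Fermat.Agent.GB.B3.StageGroups

set_option autoImplicit false
set_option linter.unusedSectionVars false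

open scoped MatrixGroups
open CongruenceSubgroup Matrix Matrix.SpecialLinearGroup ModularCurve.Period CuspForm
open Fermat.Agent.S16_helper49 Fermat.Agent.GM.B
open Fermat.Agent.GB.B3 Fermat.Agent.GB.B3.EisGamma0 Fermat.Agent.GB.B3.GamH
open Fermat.Agent.GJ.J2.Lat
open Fermat.Agent.GB.B4.Twist.Asm Fermat.Agent.GB.B4.Twist.TwFinal

namespace Fermat.Agent.GB.B5.Point

open Fermat.Agent.S49_helper65 Fermat.Agent.GB.B7.Point

/-! ### abstract part -/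

section Abstract

variable {V : Type*} [AddCommGroup V] [Module ℂ V] [FiniteDimensional ℂ V]
variable {T : Type*} [CommRing T] [Algebra.IsIntegral ℤ T] (ρ : T →+* Module.End ℂ V)

/-- **Deligne–Serre for a point**: a characteristic-zero point `χ` of `T` which vanishes on the
annihilator of the stable subspace `W₁` is (up to an embedding of its image into `ℂ`) the
eigencharacter of an eigenvector in `W₁`. -/
theorem exists_eigenvector_of_point {D : Type*} [CommRing D] [IsDomain D] [CharZero D]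
    (χ : T →+* D) (W₁ : Submodule ℂ V) (hst : ∀ t : T, ∀ w ∈ W₁, ρ t w ∈ W₁)
    (hann : ∀ t : T, (∀ w ∈ W₁, ρ t w = 0) → χ t = 0) :
    ∃ ι : ↥χ.range →+* ℂ, Function.Injective ι ∧ ∃ g ∈ W₁, g ≠ 0 ∧
      ∀ t : T, ρ t g = ι (χ.rangeRestrict t) • g := by
  classical
  haveI h𝔭 : (RingHom.ker χ).IsPrime := RingHom.ker_isPrime χ
  obtain ⟨g, θ₀, hgW, hg0, hgeig, hker⟩ :=
    exists_eigenvector_of_annOf_le ρ (RingHom.ker χ) W₁ hst (fun t ht => hann t ht)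
  have hkereq : RingHom.ker χ ≤ RingHom.ker θ₀ := ker_le_ker_of_ker_le χ θ₀ hker
  let ι : ↥χ.range →+* ℂ :=
    RingHom.liftOfSurjective (C := ℂ) χ.rangeRestrict χ.rangeRestrict_surjective
      ⟨θ₀, fun t ht => by
        rw [RingHom.mem_ker] at ht
        have h1 : χ t = 0 := by
          have := congrArg Subtype.val ht
          simpa using this
        exact hkereq h1⟩
  have hι : ∀ t, ι (χ.rangeRestrict t) = θ₀ t := fun t =>
    RingHom.liftOfSurjective_comp_apply (C := ℂ) χ.rangeRestrict χ.rangeRestrict_surjective _ t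
  have hιinj : Function.Injective ι := by
    rw [injective_iff_map_eq_zero]
    intro x hx
    obtain ⟨t, rfl⟩ := χ.rangeRestrict_surjective x
    rw [hι] at hx
    have h1 : χ t = 0 := hker hx
    apply Subtype.ext
    simpa using h1
  refine ⟨ι, hιinj, g, hgW, hg0, fun t => ?_⟩
  rw [hι]
  exact hgeig t

end Abstract

/-! ### the frame of `TwFinal`, coefficients `ℂ` -/

section Concrete

variable {N : ℕ} [NeZero N] {Δ : Type} [CommGroup Δ] (θ : (ZMod N)ˣ →* Δ)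

/-- `T_ℓ` on the parabolic classes, primality as an argument -/
noncomputable def THVp (ℓ : ℕ) (hp : ℓ.Prime) (hℓ : ¬ ℓ ∣ N) :
    Module.End ℂ ↥(parabolicHoms ℂ (GammaH θ) ℂ) :=
  haveI : Fact ℓ.Prime := ⟨hp⟩
  THV θ ℂ hℓ

/-- `U_q` on the parabolic classes, primality as an argument -/
noncomputable def UHVp (q : ℕ) (hp : q.Prime) (hq : q ∣ N) :
    Module.End ℂ ↥(parabolicHoms ℂ (GammaH θ) ℂ) :=
  haveI : NeZero q := ⟨hp.ne_zero⟩
  UHV θ ℂ hq

theorem THVp_eq (ℓ : ℕ) [Fact ℓ.Prime] (hp : ℓ.Prime) (hℓ : ¬ ℓ ∣ N) :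
    THVp θ ℓ hp hℓ = THV θ ℂ hℓ := rfl

theorem UHVp_eq (q : ℕ) [NeZero q] (hp : q.Prime) (hq : q ∣ N) :
    UHVp θ q hp hq = UHV θ ℂ hq := rfl

/-- the commuting family: all diamonds, all `T_ℓ` (`ℓ ∤ N`), all `U_q` (`q ∣ N` prime) -/
def opSet : Set (Module.End ℂ ↥(parabolicHoms ℂ (GammaH θ) ℂ)) :=
  {a | (∃ d : Gamma0 N, a = diaV θ ℂ d) ∨
    (∃ (ℓ : ℕ) (hp : ℓ.Prime) (hℓ : ¬ ℓ ∣ N), a = THVp θ ℓ hp hℓ) ∨
    (∃ (q : ℕ) (hp : q.Prime) (hq : q ∣ N), a = UHVp θ q hp hq)}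

theorem commute_diaV_diaV (d d' : Gamma0 N) : Commute (diaV θ ℂ d) (diaV θ ℂ d') := by
  refine LinearMap.ext fun v => Subtype.ext ?_
  rw [Module.End.mul_apply, Module.End.mul_apply, coe_diaV, coe_diaV, coe_diaV, coe_diaV,
    diaH_comm]

theorem commute_diaV_THVp (d : Gamma0 N) (ℓ : ℕ) (hp : ℓ.Prime) (hℓ : ¬ ℓ ∣ N) :
    Commute (diaV θ ℂ d) (THVp θ ℓ hp hℓ) := by
  haveI : Fact ℓ.Prime := ⟨hp⟩
  refine LinearMap.ext fun v => Subtype.ext ?_
  rw [THVp_eq, Module.End.mul_apply, Module.End.mul_apply, coe_diaV, coe_THV, coe_THV, coe_diaV,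
    diaH_TH]

theorem commute_diaV_UHVp (d : Gamma0 N) (q : ℕ) (hp : q.Prime) (hq : q ∣ N) :
    Commute (diaV θ ℂ d) (UHVp θ q hp hq) := by
  haveI : NeZero q := ⟨hp.ne_zero⟩
  refine LinearMap.ext fun v => Subtype.ext ?_
  rw [UHVp_eq, Module.End.mul_apply, Module.End.mul_apply, coe_diaV, coe_UHV, coe_UHV, coe_diaV,
    diaH_UH]

theorem commute_THVp_THVp (ℓ : ℕ) (hp : ℓ.Prime) (hℓ : ¬ ℓ ∣ N) (ℓ' : ℕ) (hp' : ℓ'.Prime)
    (hℓ' : ¬ ℓ' ∣ N) : Commute (THVp θ ℓ hp hℓ) (THVp θ ℓ' hp' hℓ') := by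
  haveI : Fact ℓ.Prime := ⟨hp⟩
  haveI : Fact ℓ'.Prime := ⟨hp'⟩
  refine LinearMap.ext fun v => Subtype.ext ?_
  rw [THVp_eq, THVp_eq, Module.End.mul_apply, Module.End.mul_apply, coe_THV, coe_THV, coe_THV,
    coe_THV, CommGammaH.TH_comm]

theorem commute_UHVp_THVp (q : ℕ) (hp : q.Prime) (hq : q ∣ N) (ℓ : ℕ) (hp' : ℓ.Prime)
    (hℓ : ¬ ℓ ∣ N) : Commute (UHVp θ q hp hq) (THVp θ ℓ hp' hℓ) := by
  haveI : NeZero q := ⟨hp.ne_zero⟩
  haveI : Fact ℓ.Prime := ⟨hp'⟩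
  refine LinearMap.ext fun v => Subtype.ext ?_
  rw [UHVp_eq, THVp_eq, Module.End.mul_apply, Module.End.mul_apply, coe_UHV, coe_THV, coe_THV,
    coe_UHV, CommGammaH.UH_TH_comm θ ℂ hℓ hq hp.one_lt]

theorem commute_UHVp_UHVp (q : ℕ) (hp : q.Prime) (hq : q ∣ N) (q' : ℕ) (hp' : q'.Prime)
    (hq' : q' ∣ N) : Commute (UHVp θ q hp hq) (UHVp θ q' hp' hq') := by
  by_cases hqq : q = q'
  · subst hqq
    exact Commute.refl _
  haveI : NeZero q := ⟨hp.ne_zero⟩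
  haveI : NeZero q' := ⟨hp'.ne_zero⟩
  refine LinearMap.ext fun v => Subtype.ext ?_
  rw [UHVp_eq, UHVp_eq, Module.End.mul_apply, Module.End.mul_apply, coe_UHV, coe_UHV, coe_UHV,
    coe_UHV, CommGammaH.UH_comm θ ℂ hq' hq hp'.one_lt hp.one_lt
      ((Nat.coprime_primes hp' hp).mpr (Ne.symm hqq))]

/-- the family commutes -/
theorem commute_opSet : ∀ a ∈ opSet θ, ∀ b ∈ opSet θ, Commute a b := by
  rintro a (⟨d, rfl⟩ | ⟨ℓ, hp, hℓ, rfl⟩ | ⟨q, hp, hq, rfl⟩)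
    b (⟨d', rfl⟩ | ⟨ℓ', hp', hℓ', rfl⟩ | ⟨q', hp', hq', rfl⟩)
  · exact commute_diaV_diaV θ d d'
  · exact commute_diaV_THVp θ d ℓ' hp' hℓ'
  · exact commute_diaV_UHVp θ d q' hp' hq'
  · exact (commute_diaV_THVp θ d' ℓ hp hℓ).symm
  · exact commute_THVp_THVp θ ℓ hp hℓ ℓ' hp' hℓ'
  · exact (commute_UHVp_THVp θ q' hp' hq' ℓ hp hℓ).symm
  · exact (commute_diaV_UHVp θ d' q hp hq).symm
  · exact commute_UHVp_THVp θ q hp hq ℓ' hp' hℓ'
  · exact commute_UHVp_UHVp θ q hp hq q' hp' hq'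

instance finiteDimensional_parabolicHoms_GammaH :
    FiniteDimensional ℂ ↥(parabolicHoms ℂ (GammaH θ) ℂ) := by
  haveI : Module.Finite ℂ (Additive (GammaH θ) →+ ℂ) := StageGroups.homFinite_GammaH θ ℂ
  infer_instance

variable {N' : ℕ} [NeZero N'] (S : Set ℕ) (hS : ∀ q : ℕ, q.Prime → q ∣ N' → q ∈ S)
  (hNN' : N ∣ N') (dℓ : PrimesOff S → Gamma0 N)
  (tw : ↥(heckeAlgebra N' 2 S) →+* Module.End ℂ ↥(parabolicHoms ℂ (GammaH θ) ℂ))

/-- local instance (Prop-valued class) -/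
local instance factPrimeOffB5 {S : Set ℕ} (l : PrimesOff S) : Fact (l.1 : ℕ).Prime := ⟨l.1.2⟩

variable
  (htw : ∀ (l : PrimesOff S) (v : ↥(parabolicHoms ℂ (GammaH θ) ℂ)),
    ((tw (formsGenS N' S l) v : ↥(parabolicHoms ℂ (GammaH θ) ℂ)) : Additive (GammaH θ) →+ ℂ)
      = diaH θ ℂ (dℓ l) (GamH.TH θ ℂ (not_dvd_level S hS hNN' l)
          (v : Additive (GammaH θ) →+ ℂ)))

include htw in
/-- every element of the family commutes with the twisted Hecke action -/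
theorem commute_opSet_tw (a : Module.End ℂ ↥(parabolicHoms ℂ (GammaH θ) ℂ)) (ha : a ∈ opSet θ)
    (t : ↥(heckeAlgebra N' 2 S)) : Commute a (tw t) := by
  rcases ha with ⟨d, rfl⟩ | ⟨ℓ, hp, hℓ, rfl⟩ | ⟨q, hp, hq, rfl⟩
  · exact commute_diaV_tw θ S hS hNN' dℓ tw htw d t
  · haveI : Fact ℓ.Prime := ⟨hp⟩
    exact commute_THV_tw θ S hS hNN' dℓ tw htw hℓ t
  · haveI : NeZero q := ⟨hp.ne_zero⟩
    exact commute_UHV_tw θ S hS hNN' dℓ tw htw hq hp.one_lt t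

include htw in
/-- a subspace stable under the family is stable under the twisted Hecke action -/
theorem tw_mem_of_opSet (W₁ : Submodule ℂ ↥(parabolicHoms ℂ (GammaH θ) ℂ))
    (hW : ∀ a ∈ opSet θ, ∀ w ∈ W₁, a w ∈ W₁) (t : ↥(heckeAlgebra N' 2 S)) :
    ∀ w ∈ W₁, tw t w ∈ W₁ := by
  have ht : t ∈ Subring.closure (Set.range (formsGenS N' S)) := by
    rw [Fermat.Agent.GB.B4.Twist.TwHom.closure_range_formsGenS]
    exact Subring.mem_top t
  induction ht using Subring.closure_induction with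
  | mem x hx =>
    obtain ⟨l, rfl⟩ := hx
    intro w hw
    have e : tw (formsGenS N' S l) w
        = diaV θ ℂ (dℓ l) (THVp θ (l.1 : ℕ) l.1.2 (not_dvd_level S hS hNN' l) w) := by
      apply Subtype.ext
      rw [htw, coe_diaV, THVp_eq, coe_THV]
    rw [e]
    exact hW _ (Or.inl ⟨dℓ l, rfl⟩) _ (hW _ (Or.inr (Or.inl ⟨_, l.1.2, _, rfl⟩)) w hw)
  | zero => intro w _; rw [map_zero, LinearMap.zero_apply]; exact W₁.zero_mem
  | one => intro w hw; rw [map_one, Module.End.one_apply]; exact hw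
  | add x y _ _ hx hy =>
    intro w hw
    rw [map_add, LinearMap.add_apply]
    exact W₁.add_mem (hx w hw) (hy w hw)
  | neg x _ hx =>
    intro w hw
    rw [map_neg, LinearMap.neg_apply]
    exact W₁.neg_mem (hx w hw)
  | mul x y _ _ hx hy =>
    intro w hw
    rw [map_mul, Module.End.mul_apply]
    exact hx _ (hy w hw)

include htw in
/-- **Part A**: from a characteristic-zero point `χ` of the twisted Hecke action, vanishing on the
annihilator of `W₁`, to a simultaneous eigenclass `φ ∈ W₁` of all diamonds, `T_ℓ`, `U_q`, with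
`tw t φ = ι (χ t) • φ`. -/
theorem exists_eigenclass_of_point {D : Type*} [CommRing D] [IsDomain D] [CharZero D]
    (χ : ↥(heckeAlgebra N' 2 S) →+* D)
    (W₁ : Submodule ℂ ↥(parabolicHoms ℂ (GammaH θ) ℂ))
    (hW : ∀ a ∈ opSet θ, ∀ w ∈ W₁, a w ∈ W₁)
    (hann : ∀ t : ↥(heckeAlgebra N' 2 S), (∀ w ∈ W₁, tw t w = 0) → χ t = 0) :
    ∃ ι : ↥χ.range →+* ℂ, Function.Injective ι ∧
      ∃ φ : ↥(parabolicHoms ℂ (GammaH θ) ℂ), φ ∈ W₁ ∧ φ ≠ 0 ∧
        (∀ t, tw t φ = ι (χ.rangeRestrict t) • φ) ∧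
        (∀ d : Gamma0 N, ∃ c : ℂ, diaV θ ℂ d φ = c • φ) ∧
        (∀ (ℓ : ℕ) [Fact ℓ.Prime] (hℓ : ¬ ℓ ∣ N), ∃ c : ℂ, THV θ ℂ hℓ φ = c • φ) ∧
        (∀ (q : ℕ) [NeZero q] (hq : q ∣ N), q.Prime → ∃ c : ℂ, UHV θ ℂ hq φ = c • φ) := by
  classical
  haveI hfin : Module.Finite ℤ ↥(heckeAlgebra N' 2 S) := Fermat.Agent.S22.result N' 2 S
  haveI hint : Algebra.IsIntegral ℤ ↥(heckeAlgebra N' 2 S) := Algebra.IsIntegral.of_finite ℤ _
  obtain ⟨ι, hιinj, g, hgW, hg0, hgeig⟩ :=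
    exists_eigenvector_of_point tw χ W₁ (tw_mem_of_opSet θ S hS hNN' dℓ tw htw W₁ hW) hann
  -- the joint eigenspace inside `W₁`
  let E : Submodule ℂ ↥(parabolicHoms ℂ (GammaH θ) ℂ) :=
    { carrier := {f | f ∈ W₁ ∧ ∀ t, tw t f = ι (χ.rangeRestrict t) • f}
      add_mem' := by
        rintro a b ⟨ha, ha'⟩ ⟨hb, hb'⟩
        refine ⟨W₁.add_mem ha hb, fun t => ?_⟩
        rw [map_add, ha' t, hb' t, smul_add]
      zero_mem' := ⟨W₁.zero_mem, fun t => by rw [map_zero, smul_zero]⟩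
      smul_mem' := by
        rintro c a ⟨ha, ha'⟩
        refine ⟨W₁.smul_mem c ha, fun t => ?_⟩
        rw [map_smul, ha' t, smul_comm] }
  have hE : E ≠ ⊥ := by
    intro h
    have : g ∈ E := ⟨hgW, hgeig⟩
    rw [h, Submodule.mem_bot] at this
    exact hg0 this
  have hstab : ∀ a ∈ opSet θ, ∀ w ∈ E, a w ∈ E := by
    rintro a ha w ⟨hw, hw'⟩
    refine ⟨hW a ha w hw, fun t => ?_⟩
    have hc := (commute_opSet_tw θ S hS hNN' dℓ tw htw a ha t).eq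
    have h1 : tw t (a w) = a (tw t w) := by
      rw [← Module.End.mul_apply, ← hc, Module.End.mul_apply]
    rw [h1, hw' t, map_smul]
  obtain ⟨v, hvE, hv0, hv⟩ :=
    Fermat.Agent.S49.exists_common_eigenvector (opSet θ) (commute_opSet θ)
      (Module.finrank ℂ E) E rfl hE hstab
  refine ⟨ι, hιinj, v, hvE.1, hv0, hvE.2, fun d => hv _ (Or.inl ⟨d, rfl⟩), ?_, ?_⟩
  · intro ℓ _ hℓ
    exact hv _ (Or.inr (Or.inl ⟨ℓ, Fact.out, hℓ, rfl⟩))
  · intro q _ hq hp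
    exact hv _ (Or.inr (Or.inr ⟨q, hp, hq, rfl⟩))

end Concrete

end Fermat.Agent.GB.B5.Point
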