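/-
GATE-B / GB-B5-POINT, THE ASSEMBLY (helper83): **from a characteristic-zero point of the twisted
Hecke algebra to a newform with `r₀`-exponent `2`.**

Frame: helper44's `TwFinal` Main block at coefficients `ℂ` (`θ : (ZMod N)ˣ →* Δ` surjective, `|Δ|`
odd, `L` the list of the primes `r ∥ N` where `θ` is ramified, helper10's local structure
`θloc pr hpr hprod`, `S`, `dℓ`, `hdℓ`, `tw`, `htw`).  Input: a point `χ : heckeAlgebra N' 2 S →+* D`
(`D` a domain of characteristic `0`), a subspace `W₁` of `Hom_par(Γ_H(N), ℂ)` stable under all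
diamonds / `T_ℓ` / `U_q` with `(∀ w ∈ W₁, tw t w = 0) → χ t = 0`, and a prime `r₀ ∈ L` such that every
diamond eigenvector in `W₁` has nebentypus NOT trivial at `r₀`.  Output: an injective
`ι : χ.range →+* ℂ` and a NEWFORM `g` of some level `M ∣ N · ∏ L` with `a_ℓ(g) = ι (χ T_ℓ)`
(`ℓ ∉ S`) and `M.factorization r₀ = 2` (the hypothesis of the frozen `S36`).

Route: Part A (`PointDS.exists_eigenclass_of_point`) gives the eigenclass `φ`; its nebentypus `E`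
(`FinalAux.exists_char_of_diaH_eigen`) selects the sub-list `L₁ ++ [r₀]` of the primes where `E` is
ramified; helper10's `L6Loc.datumList` gives the chain; Part B (`ChainForm`) gives `G` with
`chainD φ = per(c₁ G, c₂ G)`; helper65's `UHInj` gives `a ≠ 0`; helper8's `B5ChainFinal` concludes.
-/
import Mathlib
import Fermat.Agent.GB.B5.Point.PointDS
import Fermat.Agent.GB.B5.Point.ChainForm
import Fermat.Agent.GB.B5.Point.FinalAux
import Fermat.Agent.GB.B5.Depl.B5ChainFinal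
import Fermat.Agent.GB.B5.Betti.UHInj

set_option autoImplicit false
set_option linter.unusedSectionVars false

open scoped MatrixGroups
open CongruenceSubgroup Matrix Matrix.SpecialLinearGroup ModularCurve ModularCurve.Period
open Fermat.Agent.S16_helper49 Fermat.Agent.GM.B
open Fermat.Agent.GB.B3 Fermat.Agent.GB.B3.EisGamma0 Fermat.Agent.GB.B3.GamH
open Fermat.Agent.GJ.J2.Lat
open Fermat.Agent.GB.B4.Twist Fermat.Agent.GB.B4.Twist.RPsi Fermat.Agent.GB.B4.Twist.Chain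
open Fermat.Agent.GB.B4.Twist.ChainD Fermat.Agent.GB.B4.Twist.ChainInj
open Fermat.Agent.GB.B4.Twist.L6Loc Fermat.Agent.GB.B4.Twist.Asm
open Fermat.Agent.GB.B4.Twist.TwFinal
open Fermat.Agent.GB.B5.Betti Fermat.Agent.GB.B5.Depl
open ModularFormClass CuspForm

namespace Fermat.Agent.GB.B5.Point

/-! ### `a ≠ 0` from the local structure -/

section ANeZero

variable {N : ℕ} [NeZero N] {Δ : Type} [CommGroup Δ] (θ : (ZMod N)ˣ →* Δ)
  (L : List ℕ) (hL : ∀ r ∈ L, r.Prime) (hnd : L.Nodup)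
  (hdvd : ∀ r ∈ L, r ∣ N) (hsq : ∀ r ∈ L, ¬ r ^ 2 ∣ N)
  (θloc : (r : ℕ) → (ZMod r)ˣ →* Δ) (pr : ℕ → Δ →* Δ)
  (hpr : ∀ r ∈ L, ∀ (h : r ∣ N) (u : (ZMod N)ˣ), pr r (θ u) = θloc r (ZMod.unitsMap h u))
  (hprod : ∀ u : (ZMod N)ˣ, θ u = (L.map fun r => pr r (θ u)).prod)

include hL hnd hdvd hpr hprod in
/-- a distinct prime of `L` divides `N / r₀` -/
theorem dvd_div_of_mem {r₀ : ℕ} (hr₀L : r₀ ∈ L) {r : ℕ} (hr : r ∈ L) (hne : r ≠ r₀) :
    r ∣ N / r₀ := by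
  have h1 : r ∣ N / r₀ * r₀ := by
    rw [Nat.div_mul_cancel (hdvd r₀ hr₀L)]
    exact hdvd r hr
  rcases (hL r hr).dvd_mul.mp h1 with h | h
  · exact h
  · exact absurd ((Nat.prime_dvd_prime_iff_eq (hL r hr) (hL r₀ hr₀L)).mp h) hne

include hL hnd hdvd hsq hpr hprod in
/-- **the `U_{r₀}`-eigenvalue of an eigenclass with nebentypus ramified at `r₀` is not zero** -/
theorem UH_eigenvalue_ne_zero_of_local {r₀ : ℕ} [Fact r₀.Prime] (hr₀L : r₀ ∈ L)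
    (E : Δ →* ℂˣ) (hE : E.comp (θloc r₀) ≠ 1)
    (φ : Additive (GammaH θ) →+ ℂ) (hφ : ConjEigen θ (fun δ => ((E δ : ℂˣ) : ℂ)) φ)
    (hφ0 : φ ≠ 0) (a : ℂ) (ha : UH θ ℂ (hdvd r₀ hr₀L) φ = a • φ) : a ≠ 0 := by
  classical
  have hr₀ : r₀.Prime := Fact.out
  have hdiv : ∀ r ∈ L, r ≠ r₀ → r ∣ N / r₀ := fun r hr hne =>
    dvd_div_of_mem θ L hL hnd hdvd θloc pr hpr hprod hr₀L hr hne
  have hG : InvStableG (N / r₀) r₀ θ :=
    invStableG_of_local θ L hdvd θloc pr hpr hprod r₀ (N / r₀) hdiv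
  obtain ⟨N₁, rfl⟩ : ∃ N₁, N = N₁ * r₀ := ⟨N / r₀, (Nat.div_mul_cancel (hdvd r₀ hr₀L)).symm⟩
  have hN₁ : N₁ * r₀ / r₀ = N₁ := Nat.mul_div_cancel N₁ hr₀.pos
  rw [hN₁] at hG hdiv
  haveI : NeZero N₁ := ⟨fun h0 => by
    have := NeZero.ne (N₁ * r₀)
    rw [h0, zero_mul] at this
    exact this rfl⟩
  have hrN : ¬ r₀ ∣ N₁ := by
    intro h
    apply hsq r₀ hr₀L
    rw [pow_two]
    exact Nat.mul_dvd_mul_right h r₀
  have hθ : InvStable N₁ r₀ θ := fun u v hu h1 h2 =>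
    hG (Nat.dvd_mul_right N₁ r₀) (Nat.dvd_mul_left r₀ N₁) u v hu h1 h2
  haveI : Module.Finite ℂ (Additive (GammaH θ) →+ ℂ) := StageGroups.homFinite_GammaH θ ℂ
  refine UH_eigenvalue_ne_zero θ hrN hθ (Nat.cast_ne_zero.mpr hr₀.ne_zero)
    (fun δ => ((E δ : ℂˣ) : ℂ)) (fun u => ((E (θloc r₀ u) : ℂˣ) : ℂ)) ?_ ?_ φ hφ hφ0 a ha
  · intro v hv
    have e1 : θ v = θloc r₀ (ZMod.unitsMap (Nat.dvd_mul_left r₀ N₁) v) := by
      have h1 := char_eq_prod_sublist θ L hnd pr hprod (MonoidHom.id Δ) [r₀]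
        (List.nodup_singleton r₀) (fun r hr => by rw [List.mem_singleton.mp hr]; exact hr₀L) v
        (by
          intro r hr hr0
          have hne : r ≠ r₀ := fun h => hr0 (by rw [h]; exact List.mem_singleton_self r₀)
          rw [MonoidHom.id_apply, hpr r hr (hdvd r hr) v]
          have hrd : r ∣ N₁ := hdiv r hr hne
          have e := DFunLike.congr_fun
            (ZMod.unitsMap_comp hrd (Nat.dvd_mul_right N₁ r₀)) v
          rw [MonoidHom.comp_apply, hv, map_one] at e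
          rw [← e, map_one])
      rw [List.map_singleton, List.prod_singleton, MonoidHom.id_apply, MonoidHom.id_apply,
        hpr r₀ hr₀L (Nat.dvd_mul_left r₀ N₁) v] at h1
      exact h1.symm
    show ((E (θ v) : ℂˣ) : ℂ) = _
    rw [e1]
  · haveI : NeZero r₀ := ⟨hr₀.ne_zero⟩
    refine sum_comp_eq_zero (θr := θloc r₀) E ?_
    by_contra hcon
    push Not at hcon
    apply hE
    refine MonoidHom.ext fun u => ?_
    rw [MonoidHom.comp_apply, hcon u, MonoidHom.one_apply]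

end ANeZero

/-! ### the assembly -/

section Final

variable {N N' : ℕ} [NeZero N] [NeZero N'] {Δ : Type} [CommGroup Δ] [Fintype Δ]
  (θ : (ZMod N)ˣ →* Δ) (hθ : Function.Surjective θ) (hodd : Odd (Nat.card Δ))
  (L : List ℕ) (hL : ∀ r ∈ L, r.Prime) (hnd : L.Nodup)
  (hdvd : ∀ r ∈ L, r ∣ N) (hsq : ∀ r ∈ L, ¬ r ^ 2 ∣ N)
  (θloc : (r : ℕ) → (ZMod r)ˣ →* Δ) (pr : ℕ → Δ →* Δ)
  (hpr : ∀ r ∈ L, ∀ (h : r ∣ N) (u : (ZMod N)ˣ), pr r (θ u) = θloc r (ZMod.unitsMap h u))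
  (hprod : ∀ u : (ZMod N)ˣ, θ u = (L.map fun r => pr r (θ u)).prod)
  (S : Set ℕ) (hS : ∀ q : ℕ, q.Prime → q ∣ N' → q ∈ S) (hNN' : N ∣ N')
  (dℓ : PrimesOff S → Gamma0 N)
  (hdℓ : ∀ (l : PrimesOff S) (u : (ZMod N)ˣ), (u : ZMod N) = ((l.1 : ℕ) : ZMod N) →
    chi θ (dℓ l) ^ 2 * θ u = 1)
  (tw : ↥(heckeAlgebra N' 2 S) →+* Module.End ℂ ↥(parabolicHoms ℂ (GammaH θ) ℂ))

/-- local instance (Prop-valued class) -/
local instance factPrimeOffB5F {S : Set ℕ} (l : PrimesOff S) : Fact (l.1 : ℕ).Prime := ⟨l.1.2⟩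

variable
  (htw : ∀ (l : PrimesOff S) (v : ↥(parabolicHoms ℂ (GammaH θ) ℂ)),
    ((tw (formsGenS N' S l) v : ↥(parabolicHoms ℂ (GammaH θ) ℂ)) : Additive (GammaH θ) →+ ℂ)
      = diaH θ ℂ (dℓ l) (GamH.TH θ ℂ (not_dvd_level S hS hNN' l)
          (v : Additive (GammaH θ) →+ ℂ)))

/-- a character of a group of odd order and its square root have the same kernel on a
subgroup -/
theorem sqrtChar_comp_eq_one_iff (hodd : Odd (Nat.card Δ)) (E : Δ →* ℂˣ) {G : Type*} [Group G]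
    (f : G →* Δ) : (sqrtChar E).comp f = 1 ↔ E.comp f = 1 := by
  constructor
  · intro h
    refine MonoidHom.ext fun x => ?_
    have h1 := DFunLike.congr_fun h x
    rw [MonoidHom.comp_apply, MonoidHom.one_apply] at h1
    rw [MonoidHom.comp_apply, MonoidHom.one_apply, ← sqrtChar_sq_apply hodd E (f x), h1, one_pow]
  · intro h
    refine MonoidHom.ext fun x => ?_
    have h1 := DFunLike.congr_fun h x
    rw [MonoidHom.comp_apply, MonoidHom.one_apply] at h1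
    rw [MonoidHom.comp_apply, MonoidHom.one_apply, sqrtChar_apply, h1, one_pow]

/-- the `ψ` of a `datum` at a ramified prime is not trivial -/
theorem datum_ψ_ne_one (hodd : Odd (Nat.card Δ)) (E : Δ →* ℂˣ) (r : ℕ) (hr : r.Prime)
    (hE : E.comp (θloc r) ≠ 1) : (datum θloc pr E r hr).ψ ≠ 1 := by
  intro h
  apply hE
  rw [← sqrtChar_comp_eq_one_iff hodd E (θloc r)]
  refine MonoidHom.ext fun v => ?_
  have h1 := datum_ψ_coe θloc pr E r hr v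
  rw [h] at h1
  rw [MonoidHom.one_apply, MonoidHom.comp_apply]
  apply Units.ext
  rw [Units.val_one, ← h1]
  exact MulChar.one_apply_coe v

/-- the square of the `ψ` of a `datum` at a ramified prime is not trivial -/
theorem datum_ψ_sq_ne_one (hodd : Odd (Nat.card Δ)) (E : Δ →* ℂˣ) (r : ℕ) (hr : r.Prime)
    (hE : E.comp (θloc r) ≠ 1) : (datum θloc pr E r hr).ψ ^ 2 ≠ 1 := by
  intro h
  apply hE
  refine MonoidHom.ext fun v => ?_
  have h1 := datum_ψ_coe θloc pr E r hr v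
  have h2 : ((datum θloc pr E r hr).ψ ^ 2) ((v : ZMod r) : ZMod (datum θloc pr E r hr).r)
      = (datum θloc pr E r hr).ψ ((v : ZMod r) : ZMod (datum θloc pr E r hr).r) ^ 2 :=
    MulChar.pow_apply_coe _ 2 v
  rw [h, h1] at h2
  rw [MonoidHom.comp_apply, MonoidHom.one_apply, ← sqrtChar_sq_apply hodd E (θloc r v)]
  apply Units.ext
  rw [Units.val_pow_eq_pow_val, ← h2, Units.val_one]
  exact MulChar.one_apply_coe v

include hθ hodd hL hnd hdvd hsq hpr hprod hdℓ htw in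
/-- **B5-POINT, final form.** -/
theorem exists_newform_of_point {D : Type*} [CommRing D] [IsDomain D] [CharZero D]
    (χ : ↥(heckeAlgebra N' 2 S) →+* D)
    (W₁ : Submodule ℂ ↥(parabolicHoms ℂ (GammaH θ) ℂ))
    (hW : ∀ a ∈ opSet θ, ∀ w ∈ W₁, a w ∈ W₁)
    (hann : ∀ t : ↥(heckeAlgebra N' 2 S), (∀ w ∈ W₁, tw t w = 0) → χ t = 0)
    {r₀ : ℕ} (hr₀L : r₀ ∈ L)
    (hr₀ : ∀ φ : ↥(parabolicHoms ℂ (GammaH θ) ℂ), φ ∈ W₁ → φ ≠ 0 → ∀ E : Δ →* ℂˣ,
      (∀ d : Gamma0 N, diaH θ ℂ d (φ : Additive (GammaH θ) →+ ℂ)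
        = ((E (chi θ d) : ℂˣ) : ℂ) • (φ : Additive (GammaH θ) →+ ℂ)) →
      E.comp (θloc r₀) ≠ 1) :
    ∃ ι : ↥χ.range →+* ℂ, Function.Injective ι ∧ ∃ (M : ℕ) (g : CuspForm (Gamma0 M) 2),
      M ∣ N * L.prod ∧ g.IsNewform ∧
      (∀ l : PrimesOff S, qCoeff g (l.1 : ℕ) = ι (χ.rangeRestrict (formsGenS N' S l))) ∧
      M.factorization r₀ = 2 := by
  classical
  obtain ⟨ι, hι, φ, hφW, hφ0, hφtw, hφdia, hφT, hφU⟩ :=
    exists_eigenclass_of_point θ S hS hNN' dℓ tw htw χ W₁ hW hann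
  refine ⟨ι, hι, ?_⟩
  -- the underlying homomorphism
  obtain ⟨φ₀, hφ₀⟩ : ∃ φ₀ : Additive (GammaH θ) →+ ℂ, φ₀ = (φ : Additive (GammaH θ) →+ ℂ) :=
    ⟨_, rfl⟩
  have hφ₀0 : φ₀ ≠ 0 := by
    intro h
    apply hφ0
    apply Subtype.ext
    rw [← hφ₀, h]
    rfl
  have hφpar : IsParabolicHom (GammaH θ) φ₀ := by
    rw [hφ₀]
    exact (mem_parabolicHoms_iff (R := ℂ)).mp φ.2
  have huniq : ∀ a b : ℂ, a • φ₀ = b • φ₀ → a = b := by
    intro a b hab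
    have : (a - b) • φ₀ = 0 := by rw [sub_smul, hab, sub_self]
    rcases smul_eq_zero.mp this with h' | h'
    · exact sub_eq_zero.mp h'
    · exact absurd h' hφ₀0
  -- the nebentypus
  obtain ⟨E, hE⟩ := exists_char_of_diaH_eigen θ hθ φ₀ hφ₀0 (fun d => by
    obtain ⟨c, hc⟩ := hφdia d
    refine ⟨c, ?_⟩
    have := congrArg (Subtype.val : ↥(parabolicHoms ℂ (GammaH θ) ℂ) → _) hc
    rw [hφ₀]
    exact this)
  have hEr₀ : E.comp (θloc r₀) ≠ 1 := hr₀ φ hφW hφ0 E (by rw [← hφ₀]; exact hE)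
  have hconj : ∀ (x : Gamma0 N) (k : GammaH θ),
      φ₀ (Additive.ofMul (conjK (chi θ) x k)) = ((E (chi θ x) : ℂˣ) : ℂ) • φ₀ (Additive.ofMul k) := by
    intro x k
    rw [← diaH_apply, hE x]
    rfl
  -- the eigenvalues
  have hT' : ∀ (ℓ : ℕ) (hp : ℓ.Prime) (hℓ : ¬ ℓ ∣ N), ∃ c : ℂ,
      (haveI : Fact ℓ.Prime := ⟨hp⟩; TH θ ℂ hℓ φ₀) = c • φ₀ := by
    intro ℓ hp hℓ
    haveI : Fact ℓ.Prime := ⟨hp⟩
    obtain ⟨c, hc⟩ := hφT ℓ hℓ
    refine ⟨c, ?_⟩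
    have := congrArg (Subtype.val : ↥(parabolicHoms ℂ (GammaH θ) ℂ) → _) hc
    rw [hφ₀]
    exact this
  have hU' : ∀ (q : ℕ) (hp : q.Prime) (hq : q ∣ N), ∃ c : ℂ,
      (haveI : NeZero q := ⟨hp.ne_zero⟩; UH θ ℂ hq φ₀) = c • φ₀ := by
    intro q hp hq
    haveI : NeZero q := ⟨hp.ne_zero⟩
    obtain ⟨c, hc⟩ := hφU q hq hp
    refine ⟨c, ?_⟩
    have := congrArg (Subtype.val : ↥(parabolicHoms ℂ (GammaH θ) ℂ) → _) hc
    rw [hφ₀]
    exact this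
  let μ : ℕ → ℂ := fun n =>
    if hp : n.Prime then
      (if hn : n ∣ N then (hU' n hp hn).choose else (hT' n hp hn).choose)
    else 0
  have hT : ∀ (ℓ : ℕ) [Fact ℓ.Prime] (hℓ : ¬ ℓ ∣ N), TH θ ℂ hℓ φ₀ = μ ℓ • φ₀ := by
    intro ℓ hF hℓ
    have hp : ℓ.Prime := hF.out
    have : μ ℓ = (hT' ℓ hp hℓ).choose := by
      simp only [μ, dif_pos hp, dif_neg hℓ]
    rw [this]
    exact (hT' ℓ hp hℓ).choose_spec
  have hU : ∀ (q : ℕ) [NeZero q] (hqN : q ∣ N), q.Prime → UH θ ℂ hqN φ₀ = μ q • φ₀ := by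
    intro q _ hq hp
    have : μ q = (hU' q hp hq).choose := by
      simp only [μ, dif_pos hp, dif_pos hq]
    rw [this]
    exact (hU' q hp hq).choose_spec
  -- the list of the primes where the nebentypus is ramified, `r₀` last
  have hr₀p : r₀.Prime := hL r₀ hr₀L
  obtain ⟨L₁, hL₁def⟩ : ∃ L₁ : List ℕ,
      L₁ = L.filter (fun r => decide (E.comp (θloc r) ≠ 1 ∧ r ≠ r₀)) := ⟨_, rfl⟩
  have hL₁mem : ∀ r, r ∈ L₁ ↔ r ∈ L ∧ E.comp (θloc r) ≠ 1 ∧ r ≠ r₀ := by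
    intro r
    rw [hL₁def, List.mem_filter, decide_eq_true_eq]
  have hL₁nd : L₁.Nodup := by rw [hL₁def]; exact hnd.filter _
  have hL₀nd : (L₁ ++ [r₀]).Nodup := by
    rw [List.nodup_append]
    refine ⟨hL₁nd, List.nodup_singleton r₀, ?_⟩
    intro a ha b hb
    rw [List.mem_singleton] at hb
    rw [hb]
    exact ((hL₁mem a).mp ha).2.2
  have hL₀mem : ∀ r, r ∈ L₁ ++ [r₀] ↔ r ∈ L ∧ E.comp (θloc r) ≠ 1 := by
    intro r
    rw [List.mem_append, List.mem_singleton, hL₁mem]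
    constructor
    · rintro (⟨h1, h2, -⟩ | rfl)
      · exact ⟨h1, h2⟩
      · exact ⟨hr₀L, hEr₀⟩
    · rintro ⟨h1, h2⟩
      by_cases h : r = r₀
      · exact Or.inr h
      · exact Or.inl ⟨h1, h2, h⟩
  have hL₀sub : ∀ r ∈ L₁ ++ [r₀], r ∈ L := fun r hr => ((hL₀mem r).mp hr).1
  have hL₀p : ∀ r ∈ L₁ ++ [r₀], r.Prime := fun r hr => hL r (hL₀sub r hr)
  have hL₁p : ∀ r ∈ L₁, r.Prime := fun r hr => hL₀p r (List.mem_append_left _ hr)
  have hL₀dvd : ∀ r ∈ L₁ ++ [r₀], r ∣ N := fun r hr => hdvd r (hL₀sub r hr)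
  have hL₀pr : ∀ r ∈ L₁ ++ [r₀], ∀ (h : r ∣ N) (u : (ZMod N)ˣ),
      pr r (θ u) = θloc r (ZMod.unitsMap h u) := fun r hr => hpr r (hL₀sub r hr)
  -- the chain
  obtain ⟨𝓛', h𝓛'⟩ : ∃ 𝓛' : List (TwDatum ℂ Δ), 𝓛' = datumList θloc pr E L₁ hL₁p := ⟨_, rfl⟩
  obtain ⟨d, hd⟩ : ∃ d : TwDatum ℂ Δ, d = datum θloc pr E r₀ hr₀p := ⟨_, rfl⟩
  have hdr : d.r = r₀ := by rw [hd]; rfl
  have hsplit : datumList θloc pr E (L₁ ++ [r₀]) hL₀p = 𝓛' ++ [d] := by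
    rw [h𝓛', hd]
    unfold datumList
    rw [List.pmap_append]
    rfl
  have hmem : ∀ e ∈ 𝓛' ++ [d], ∃ (r : ℕ) (hr : r ∈ L₁ ++ [r₀]),
      datum θloc pr E r (hL₀p r hr) = e := by
    intro e he
    rw [← hsplit] at he
    exact (mem_datumList θloc pr E).1 he
  have hadm : Adm N θ (𝓛' ++ [d]) := by
    rw [← hsplit]
    exact adm θloc pr E θ hodd (L₁ ++ [r₀]) hL₀p hL₀dvd hL₀pr
  have hmapr : (𝓛' ++ [d]).map (fun e => e.r) = L₁ ++ [r₀] := by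
    rw [← hsplit]
    exact map_r_datumList θloc pr E (L₁ ++ [r₀]) hL₀p
  have hne𝓛 : (𝓛' ++ [d]).Pairwise (fun a b => a.r ≠ b.r) := by
    have h1 : ((𝓛' ++ [d]).map (fun e => e.r)).Pairwise (· ≠ ·) := by
      rw [hmapr]
      exact hL₀nd
    exact List.pairwise_map.mp h1
  have hcop𝓛 : (𝓛' ++ [d]).Pairwise (fun a b => Nat.Coprime a.r b.r) :=
    hne𝓛.imp (fun {a b} hab => (Nat.coprime_primes a.hr.out b.hr.out).mpr hab)
  have hψne : ∀ e ∈ 𝓛' ++ [d], e.ψ ≠ 1 := by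
    intro e he
    obtain ⟨r, hr, rfl⟩ := hmem e he
    exact datum_ψ_ne_one θloc pr hodd E r (hL₀p r hr) ((hL₀mem r).mp hr).2
  have hsum : ∀ e ∈ 𝓛' ++ [d], ∑ x : ZMod e.r, e.ψ x = 0 := fun e he =>
    MulChar.sum_eq_zero_of_ne_one (hψne e he)
  -- triviality of the nebentypus outside the sub-list
  have htrivE : ∀ (u : (ZMod N)ˣ), ∀ r ∈ L, r ∉ L₁ ++ [r₀] → E (pr r (θ u)) = 1 := by
    intro u r hr hr0
    have h1 : E.comp (θloc r) = 1 := by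
      by_contra hcon
      exact hr0 ((hL₀mem r).mpr ⟨hr, hcon⟩)
    rw [hpr r hr (hdvd r hr) u]
    have := DFunLike.congr_fun h1 (ZMod.unitsMap (hdvd r hr) u)
    rw [MonoidHom.comp_apply, MonoidHom.one_apply] at this
    exact this
  have hprodν : ∀ u : (ZMod N)ˣ,
      ((𝓛' ++ [d]).map (fun e => e.ν)).prod (θ u) = E (θ u) := by
    intro u
    rw [← hsplit, prod_ν_datumList]
    exact char_eq_prod_sublist θ L hnd pr hprod E (L₁ ++ [r₀]) hL₀nd hL₀sub u (htrivE u)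
  have hφ𝓛 : ∀ (x : Gamma0 N) (k : GammaH θ),
      φ₀ (Additive.ofMul (conjK (chi θ) x k))
        = (((((𝓛' ++ [d]).map (fun e => e.ν)).prod (chi θ x) : ℂˣ)) : ℂ)
          • φ₀ (Additive.ofMul k) := by
    intro x k
    rw [chi_apply, hprodν, ← chi_apply]
    exact hconj x k
  -- levels and sections
  have hlev0 : chainLevel N (𝓛' ++ [d]) ≠ 0 := by
    rw [chainLevel_eq, hmapr]
    refine Nat.mul_ne_zero (NeZero.ne N) (List.prod_ne_zero ?_)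
    intro h0
    exact (hL₀p 0 h0).ne_zero rfl
  haveI : NeZero (chainLevel N (𝓛' ++ [d])) := ⟨hlev0⟩
  have hsurj : Function.Surjective (chainθ N θ (𝓛' ++ [d])) := by
    rw [chainθ_eq]
    exact hθ.comp (ZMod.unitsMap_surjective (dvd_chainLevel N (𝓛' ++ [d])))
  obtain ⟨rep, hrep⟩ := exists_rep (chainθ N θ (𝓛' ++ [d])) hsurj
  -- the descended class is not zero
  have hsq𝓛 : ∀ e ∈ 𝓛' ++ [d], ¬ e.r ^ 2 ∣ N := by
    intro e he
    obtain ⟨r, hr, rfl⟩ := hmem e he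
    exact hsq r (hL₀sub r hr)
  have hψ𝓛 : ∀ e ∈ 𝓛' ++ [d], (∀ v : (ZMod e.r)ˣ, e.ψ (v : ZMod e.r) = 1) ∨
      ∃ v : (ZMod e.r)ˣ, e.ψ (v : ZMod e.r) ^ 2 ≠ 1 := by
    rw [← hsplit]
    exact trivial_or_sq_ne_one θloc pr E hodd (L₁ ++ [r₀]) hL₀p
  have hX0 : chainD N θ (𝓛' ++ [d]) hadm rep hrep φ₀ ≠ 0 := by
    intro h0
    apply hφ₀0
    exact chainD_injective N θ (𝓛' ++ [d]) hadm rep hrep hsq𝓛 hne𝓛 hψ𝓛
      (fun n a hn h => (smul_eq_zero.mp h).resolve_left (Nat.cast_ne_zero.mpr hn))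
      (fun c a hc h => (smul_eq_zero.mp h).resolve_left hc) φ₀ hφ𝓛 h0
  -- the eigenform
  obtain ⟨G, c₁, c₂, hG, hXG, hGl, hGr⟩ :=
    exists_eigenform_of_chainD θ (𝓛' ++ [d]) hadm rep hrep hcop𝓛 hsum φ₀ hφpar hX0 μ hT
      (fun q _ hqN hp _ => hU q hqN hp)
  haveI : Fact r₀.Prime := ⟨hr₀p⟩
  have ha0 : μ r₀ ≠ 0 :=
    UH_eigenvalue_ne_zero_of_local θ L hL hnd hdvd hsq θloc pr hpr hprod hr₀L E hEr₀ φ₀ hconj
      hφ₀0 (μ r₀) (hU r₀ (hdvd r₀ hr₀L) hr₀p)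
  -- helper8's B5 for the chain
  have hdmem : d ∈ 𝓛' ++ [d] := List.mem_append_right _ (List.mem_singleton_self d)
  have hθd : InvStableG (N / d.r) d.r θ := by
    rw [hdr]
    exact invStableG_of_local θ L hdvd θloc pr hpr hprod r₀ (N / r₀)
      (fun r hr hne => dvd_div_of_mem θ L hL hnd hdvd θloc pr hpr hprod hr₀L hr hne)
  have hψ2 : d.ψ ^ 2 ≠ 1 := by
    rw [hd]
    exact datum_ψ_sq_ne_one θloc pr hodd E r₀ hr₀p hEr₀
  have hcopd : ∀ e ∈ 𝓛', Nat.Coprime d.r e.r := fun e he =>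
    ((List.pairwise_append.mp hcop𝓛).2.2 e he d (List.mem_singleton_self d)).symm
  have had0 : μ d.r ≠ 0 := by rw [hdr]; exact ha0
  have hX0' : periodHomPair (chainLevel N (𝓛' ++ [d])) (c₁ • G, c₂ • G) ≠ 0 := by
    rw [← hXG]; exact hX0
  obtain ⟨M, hMdvd, g, hg, hgl, hMfac⟩ :=
    exists_isNewform_factorization_two_of_chainD θ 𝓛' d hadm (hsq𝓛 d hdmem) hcopd hθd hψ2 rep hrep
      φ₀ hφ𝓛 (μ d.r) had0 (hU d.r (hadm d hdmem).1 d.hr.out) hG (hGr d hdmem) c₁ c₂ hX0' hXG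
  refine ⟨M, g, ?_, hg, ?_, by rw [← hdr]; exact hMfac⟩
  · -- the level
    refine hMdvd.trans ?_
    rw [chainLevel_eq, hmapr]
    refine Nat.mul_dvd_mul_left N ?_
    obtain ⟨l, hl, hsub⟩ := List.subperm_of_subset hL₀nd hL₀sub
    rw [← hl.prod_eq]
    exact hsub.prod_dvd_prod
  · -- the eigenvalues away from `S`
    intro l
    have hlp : (l.1 : ℕ).Prime := l.1.2
    have hlN : ¬ (l.1 : ℕ) ∣ N := not_dvd_level S hS hNN' l
    have hler : ∀ e ∈ 𝓛' ++ [d], e.r ≠ (l.1 : ℕ) := by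
      intro e he heq
      apply hlN
      rw [← heq]
      exact (hadm e he).1
    have hlchain : ¬ (l.1 : ℕ) ∣ chainLevel N (𝓛' ++ [d]) := by
      rw [chainLevel_eq]
      intro h
      rcases hlp.dvd_mul.mp h with h | h
      · exact hlN h
      · obtain ⟨a, ha, hla⟩ := (Prime.dvd_prod_iff hlp.prime).mp h
        obtain ⟨e, he, rfl⟩ := List.mem_map.mp ha
        exact hler e he ((Nat.prime_dvd_prime_iff_eq hlp e.hr.out).mp hla).symm
    rw [hgl _ hlp hlchain]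
    have h1 := hGl _ hlp hler
    -- the unit `u ≡ l`
    have hcopl : Nat.Coprime (l.1 : ℕ) N := (Nat.Prime.coprime_iff_not_dvd hlp).mpr hlN
    obtain ⟨u, hu⟩ : ∃ u : (ZMod N)ˣ, (u : ZMod N) = ((l.1 : ℕ) : ZMod N) :=
      ⟨ZMod.unitOfCoprime _ hcopl, ZMod.coe_unitOfCoprime _ hcopl⟩
    -- the twisting character at `l`
    have h3 : chainPsi (𝓛' ++ [d]) (l.1 : ℕ) = ((sqrtChar E (θ u) : ℂˣ) : ℂ) := by
      rw [← hsplit, chainPsi_datumList θloc pr E θ (L₁ ++ [r₀]) hL₀p hL₀dvd hL₀pr _ u hu]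
      congr 1
      refine char_eq_prod_sublist θ L hnd pr hprod (sqrtChar E) (L₁ ++ [r₀]) hL₀nd hL₀sub u ?_
      intro r hr hr0
      rw [sqrtChar_apply, htrivE u r hr hr0, one_pow]
    -- the twisted eigenvalue
    have h2 : ι (χ.rangeRestrict (formsGenS N' S l))
        = μ (l.1 : ℕ) * ((E (chi θ (dℓ l)) : ℂˣ) : ℂ) := by
      apply huniq
      have e1 := congrArg (Subtype.val : ↥(parabolicHoms ℂ (GammaH θ) ℂ) → _)
        (hφtw (formsGenS N' S l))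
      have e2 : ((ι (χ.rangeRestrict (formsGenS N' S l)) • φ :
          ↥(parabolicHoms ℂ (GammaH θ) ℂ)) : Additive (GammaH θ) →+ ℂ)
          = ι (χ.rangeRestrict (formsGenS N' S l)) • φ₀ := by
        rw [hφ₀]
        rfl
      rw [e2, htw l φ, ← hφ₀, hT (l.1 : ℕ) (not_dvd_level S hS hNN' l), diaH_smul, hE,
        smul_smul] at e1
      exact e1.symm
    have h4 : ((sqrtChar E (θ u) : ℂˣ) : ℂ) * ((E (chi θ (dℓ l)) : ℂˣ) : ℂ) = 1 := by
      rw [← Units.val_mul, ← sqrtChar_sq_apply hodd E (chi θ (dℓ l)), ← map_pow, ← map_mul,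
        mul_comm, hdℓ l u hu, map_one, Units.val_one]
    rw [h2, ← h1, h3, mul_right_comm, h4, one_mul]

end Final

end Fermat.Agent.GB.B5.Point
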