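/-
GATE-B / GB-B5-POINT, the standard choice of `W₁` (helper83): **`W₁ := ker (∑_{j ∈ s} ⟨d j⟩)`**.

For a finite family `d : J → Γ₀(N)` of diamonds whose classes `chi θ (d j)` all lie in the local
group `(θloc r₀).range`, the kernel of `e := ∑_{j ∈ s} ⟨d j⟩` on `Hom_par(Γ_H(N), ℂ)`

* is stable under the whole commuting family `opSet θ` (`hW` of `exists_newform_of_point`), and
* contains no diamond-eigenvector whose nebentypus is trivial at `r₀` (`hr₀` of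
  `exists_newform_of_point`): for such a vector `e φ = |s| • φ ≠ 0`.

Typical use: `s := Finset.univ`, `d v := rep (θloc r₀ v)` (`v : (ZMod r₀)ˣ`); or `s := range p`,
`d j := d₀ ^ j` (the kernel of `Φ_p(⟨d₀⟩)`).
-/
import Mathlib
import Fermat.Agent.GB.B5.Point.PointDS

set_option autoImplicit false
set_option linter.unusedSectionVars false

open scoped MatrixGroups
open CongruenceSubgroup Matrix Matrix.SpecialLinearGroup ModularCurve.Period CuspForm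
open Fermat.Agent.S16_helper49 Fermat.Agent.GM.B
open Fermat.Agent.GB.B3 Fermat.Agent.GB.B3.EisGamma0 Fermat.Agent.GB.B3.GamH
open Fermat.Agent.GJ.J2.Lat
open Fermat.Agent.GB.B4.Twist.Asm Fermat.Agent.GB.B4.Twist.TwFinal

namespace Fermat.Agent.GB.B5.Point

section KerDia

variable {N : ℕ} [NeZero N] {Δ : Type} [CommGroup Δ] (θ : (ZMod N)ˣ →* Δ)

/-- the kernel of an operator commuting with the family `opSet θ` is stable under the family -/
theorem ker_stable_of_commute (e : Module.End ℂ ↥(parabolicHoms ℂ (GammaH θ) ℂ))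
    (he : ∀ a ∈ opSet θ, Commute e a) :
    ∀ a ∈ opSet θ, ∀ w ∈ LinearMap.ker e, a w ∈ LinearMap.ker e := by
  intro a ha w hw
  rw [LinearMap.mem_ker] at hw ⊢
  have h1 : e (a w) = a (e w) := by
    have := congrArg (fun f : Module.End ℂ ↥(parabolicHoms ℂ (GammaH θ) ℂ) => f w) (he a ha).eq
    simpa [Module.End.mul_apply] using this
  rw [h1, hw, map_zero]

/-- a linear combination of diamonds commutes with the family -/
theorem commute_sum_diaV {J : Type*} (s : Finset J) (c : J → ℂ) (d : J → Gamma0 N) :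
    ∀ a ∈ opSet θ, Commute (∑ j ∈ s, c j • diaV θ ℂ (d j)) a := by
  intro a ha
  refine Commute.sum_left _ _ _ fun j _ => ?_
  refine Commute.smul_left ?_ (c j)
  exact commute_opSet θ _ (Or.inl ⟨d j, rfl⟩) a ha

/-- **`hW` for `W₁ := ker (∑ c j • ⟨d j⟩)`** -/
theorem hW_ker_sum_smul_diaV {J : Type*} (s : Finset J) (c : J → ℂ) (d : J → Gamma0 N) :
    ∀ a ∈ opSet θ, ∀ w ∈ LinearMap.ker (∑ j ∈ s, c j • diaV θ ℂ (d j)),
      a w ∈ LinearMap.ker (∑ j ∈ s, c j • diaV θ ℂ (d j)) :=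
  ker_stable_of_commute θ _ (commute_sum_diaV θ s c d)

/-- **`hW` for `W₁ := ker (∑ ⟨d j⟩)`** -/
theorem hW_ker_sum_diaV {J : Type*} (s : Finset J) (d : J → Gamma0 N) :
    ∀ a ∈ opSet θ, ∀ w ∈ LinearMap.ker (∑ j ∈ s, diaV θ ℂ (d j)),
      a w ∈ LinearMap.ker (∑ j ∈ s, diaV θ ℂ (d j)) := by
  refine ker_stable_of_commute θ _ fun a ha => ?_
  refine Commute.sum_left _ _ _ fun j _ => ?_
  exact commute_opSet θ _ (Or.inl ⟨d j, rfl⟩) a ha

/-- a diamond-eigenvector in `ker (∑ c j • ⟨d j⟩)`: the character sum vanishes -/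
theorem sum_char_eq_zero_of_mem_ker {J : Type*} (s : Finset J) (c : J → ℂ) (d : J → Gamma0 N)
    (φ : ↥(parabolicHoms ℂ (GammaH θ) ℂ))
    (hφ : φ ∈ LinearMap.ker (∑ j ∈ s, c j • diaV θ ℂ (d j))) (hφ0 : φ ≠ 0)
    (E : Δ →* ℂˣ)
    (hE : ∀ x : Gamma0 N, diaH θ ℂ x (φ : Additive (GammaH θ) →+ ℂ)
      = ((E (chi θ x) : ℂˣ) : ℂ) • (φ : Additive (GammaH θ) →+ ℂ)) :
    ∑ j ∈ s, c j * ((E (chi θ (d j)) : ℂˣ) : ℂ) = 0 := by
  rw [LinearMap.mem_ker] at hφ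
  have h1 : ∀ x : Gamma0 N, diaV θ ℂ x φ = ((E (chi θ x) : ℂˣ) : ℂ) • φ := by
    intro x
    apply Subtype.ext
    rw [coe_diaV, hE x]
    rfl
  have h2 : (∑ j ∈ s, c j * ((E (chi θ (d j)) : ℂˣ) : ℂ)) • φ = 0 := by
    rw [← hφ, LinearMap.sum_apply, Finset.sum_smul]
    refine Finset.sum_congr rfl fun j _ => ?_
    rw [LinearMap.smul_apply, h1, smul_smul]
  exact (smul_eq_zero.mp h2).resolve_right hφ0

/-- **`hr₀` for `W₁ := ker (∑_{j ∈ s} ⟨d j⟩)`**, `s` non-empty, all `chi θ (d j)` in the local group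
at `r₀`: no diamond-eigenvector of `W₁` has nebentypus trivial at `r₀`. -/
theorem hr₀_ker_sum_diaV {r₀ : ℕ} (θloc₀ : (ZMod r₀)ˣ →* Δ) {J : Type*} (s : Finset J)
    (hs : s.Nonempty) (d : J → Gamma0 N) (hd : ∀ j ∈ s, chi θ (d j) ∈ θloc₀.range) :
    ∀ φ : ↥(parabolicHoms ℂ (GammaH θ) ℂ), φ ∈ LinearMap.ker (∑ j ∈ s, diaV θ ℂ (d j)) → φ ≠ 0 →
      ∀ E : Δ →* ℂˣ,
      (∀ x : Gamma0 N, diaH θ ℂ x (φ : Additive (GammaH θ) →+ ℂ)
        = ((E (chi θ x) : ℂˣ) : ℂ) • (φ : Additive (GammaH θ) →+ ℂ)) →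
      E.comp θloc₀ ≠ 1 := by
  intro φ hφ hφ0 E hE htriv
  have hφ' : φ ∈ LinearMap.ker (∑ j ∈ s, (1 : ℂ) • diaV θ ℂ (d j)) := by
    simpa using hφ
  have h1 := sum_char_eq_zero_of_mem_ker θ s (fun _ => (1 : ℂ)) d φ hφ' hφ0 E hE
  have h2 : ∀ j ∈ s, (1 : ℂ) * ((E (chi θ (d j)) : ℂˣ) : ℂ) = 1 := by
    intro j hj
    obtain ⟨v, hv⟩ := hd j hj
    have := DFunLike.congr_fun htriv v
    rw [MonoidHom.comp_apply, MonoidHom.one_apply, hv] at this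
    rw [this, Units.val_one, one_mul]
  rw [Finset.sum_congr rfl h2, Finset.sum_const, nsmul_eq_mul, mul_one] at h1
  exact (Finset.card_ne_zero.mpr hs) (Nat.cast_eq_zero.mp h1)

/-- the same with a root of unity: **`hr₀` for `W₁ := ker (∑_{j < p} ⟨d₀⟩ ^ j)`** (the kernel of
`Φ_p(⟨d₀⟩)`), `chi θ d₀` in the local group at `r₀`. -/
theorem hr₀_ker_geom_sum_diaV {r₀ : ℕ} (θloc₀ : (ZMod r₀)ˣ →* Δ) (p : ℕ) (hp : p ≠ 0)
    (d₀ : Gamma0 N) (hd₀ : chi θ d₀ ∈ θloc₀.range) :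
    ∀ φ : ↥(parabolicHoms ℂ (GammaH θ) ℂ),
      φ ∈ LinearMap.ker (∑ j ∈ Finset.range p, diaV θ ℂ (d₀ ^ j)) → φ ≠ 0 →
      ∀ E : Δ →* ℂˣ,
      (∀ x : Gamma0 N, diaH θ ℂ x (φ : Additive (GammaH θ) →+ ℂ)
        = ((E (chi θ x) : ℂˣ) : ℂ) • (φ : Additive (GammaH θ) →+ ℂ)) →
      E.comp θloc₀ ≠ 1 := by
  refine hr₀_ker_sum_diaV θ θloc₀ (Finset.range p) (Finset.nonempty_range_iff.mpr hp)
    (fun j => d₀ ^ j) ?_
  intro j _
  rw [map_pow]
  exact pow_mem hd₀ j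

end KerDia

end Fermat.Agent.GB.B5.Point
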