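/-
GATE-B / GB-B5-POINT (helper83): **`exists_newform_of_point` with the standard `W₁`**,
`W₁ := ker (∑_{j ∈ s} ⟨d j⟩)` for a finite family of diamonds in the local group at `r₀`.

* `exists_newform_of_point_ker`  : `hW`, `hr₀` discharged (`KerDia`); `hann` in the form
  `(∀ w, (∑_{j ∈ s} ⟨d j⟩) w = 0 → tw t w = 0) → χ t = 0`.
* `exists_newform_of_point_idem` : moreover `e := ∑_{j ∈ s} ⟨d j⟩` satisfies `e ∘ e = n • e`
  (the `d j` enumerate a subgroup of `Δ` of order `n`), and `hann` is in the form produced by the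
  transfer to the `O`-side (helper78 `TransferH.tw_sub_sum_dia_eq_zero_of_complex`):
  `(∀ v, tw t (n • v - ∑_{j ∈ s} ⟨d j⟩ v) = 0) → χ t = 0`.
-/
import Mathlib
import Fermat.Agent.GB.B5.Point.Final
import Fermat.Agent.GB.B5.Point.KerDia

set_option autoImplicit false
set_option linter.unusedSectionVars false

open scoped MatrixGroups
open CongruenceSubgroup Matrix Matrix.SpecialLinearGroup ModularCurve ModularCurve.Period
open Fermat.Agent.S16_helper49 Fermat.Agent.GM.B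
open Fermat.Agent.GB.B3 Fermat.Agent.GB.B3.EisGamma0 Fermat.Agent.GB.B3.GamH
open Fermat.Agent.GJ.J2.Lat
open Fermat.Agent.GB.B4.Twist.Asm
open Fermat.Agent.GB.B4.Twist.TwFinal
open ModularFormClass CuspForm

namespace Fermat.Agent.GB.B5.Point

section FinalKer

variable {N N' : ℕ} [NeZero N] [NeZero N'] {Δ : Type} [CommGroup Δ] [Fintype Δ]
  (θ : (ZMod N)ˣ →* Δ) (hθ : Function.Surjective θ) (hodd : Odd (Nat.card Δ))
  (L : List ℕ) (hL : ∀ r ∈ L, r.Prime) (hnd : L.Nodup)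
  (hdvd : ∀ r ∈ L, r ∣ N) (hsq : ∀ r ∈ L, ¬ r ^ 2 ∣ N)
  (θloc : (r : ℕ) → (ZMod r)ˣ →* Δ) (pr : ℕ → Δ →* Δ)
  (hpr : ∀ r ∈ L, ∀ (h : r ∣ N) (u : (ZMod N)ˣ), pr r (θ u) = θloc r (ZMod.unitsMap h u))
  (hprod : ∀ u : (ZMod N)ˣ, θ u = (L.map fun r => pr r (θ u)).prod)
  (S : Set ℕ) (hS : ∀ q : ℕ, q.Prime → q ∣ N' → q ∈ S) (hNN' : N ∣ N')
  (dℓ : PrimesOff S → Gamma0 N)
  (hdℓ : ∀ (l : PrimesOff S) (u : (ZMod N)ˣ), (u : ZMod N) = ((l.1 : ℕ) : ZMod N) →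
    chi θ (dℓ l) ^ 2 * θ u = 1)
  (tw : ↥(heckeAlgebra N' 2 S) →+* Module.End ℂ ↥(parabolicHoms ℂ (GammaH θ) ℂ))

/-- local instance (Prop-valued class) -/
local instance factPrimeOffB5K {S : Set ℕ} (l : PrimesOff S) : Fact (l.1 : ℕ).Prime := ⟨l.1.2⟩

variable
  (htw : ∀ (l : PrimesOff S) (v : ↥(parabolicHoms ℂ (GammaH θ) ℂ)),
    ((tw (formsGenS N' S l) v : ↥(parabolicHoms ℂ (GammaH θ) ℂ)) : Additive (GammaH θ) →+ ℂ)
      = diaH θ ℂ (dℓ l) (GamH.TH θ ℂ (not_dvd_level S hS hNN' l)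
          (v : Additive (GammaH θ) →+ ℂ)))

include hθ hodd hL hnd hdvd hsq hpr hprod hdℓ htw in
/-- **B5-POINT with `W₁ := ker (∑_{j ∈ s} ⟨d j⟩)`.** -/
theorem exists_newform_of_point_ker {D : Type*} [CommRing D] [IsDomain D] [CharZero D]
    (χ : ↥(heckeAlgebra N' 2 S) →+* D) {r₀ : ℕ} (hr₀L : r₀ ∈ L)
    {J : Type*} (s : Finset J) (hs : s.Nonempty) (d : J → Gamma0 N)
    (hd : ∀ j ∈ s, chi θ (d j) ∈ (θloc r₀).range)
    (hann : ∀ t : ↥(heckeAlgebra N' 2 S),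
      (∀ w : ↥(parabolicHoms ℂ (GammaH θ) ℂ), (∑ j ∈ s, diaV θ ℂ (d j) w) = 0 → tw t w = 0) →
      χ t = 0) :
    ∃ ι : ↥χ.range →+* ℂ, Function.Injective ι ∧ ∃ (M : ℕ) (g : CuspForm (Gamma0 M) 2),
      M ∣ N * L.prod ∧ g.IsNewform ∧
      (∀ l : PrimesOff S, qCoeff g (l.1 : ℕ) = ι (χ.rangeRestrict (formsGenS N' S l))) ∧
      M.factorization r₀ = 2 := by
  refine exists_newform_of_point θ hθ hodd L hL hnd hdvd hsq θloc pr hpr hprod S hS hNN' dℓ hdℓ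
    tw htw χ (LinearMap.ker (∑ j ∈ s, diaV θ ℂ (d j))) (hW_ker_sum_diaV θ s d) ?_ hr₀L
    (hr₀_ker_sum_diaV θ (θloc r₀) s hs d hd)
  intro t ht
  refine hann t fun w hw => ht w ?_
  rw [LinearMap.mem_ker, LinearMap.sum_apply]
  exact hw

include hθ hodd hL hnd hdvd hsq hpr hprod hdℓ htw in
/-- **B5-POINT with `W₁ := ker e`, `e := ∑_{j ∈ s} ⟨d j⟩`, `e ∘ e = n • e`**, `hann` in the form
which the transfer from the `O`-side produces. -/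
theorem exists_newform_of_point_idem {D : Type*} [CommRing D] [IsDomain D] [CharZero D]
    (χ : ↥(heckeAlgebra N' 2 S) →+* D) {r₀ : ℕ} (hr₀L : r₀ ∈ L)
    {J : Type*} (s : Finset J) (hs : s.Nonempty) (d : J → Gamma0 N)
    (hd : ∀ j ∈ s, chi θ (d j) ∈ (θloc r₀).range) (n : ℤ)
    (he : ∀ v : ↥(parabolicHoms ℂ (GammaH θ) ℂ),
      (∑ i ∈ s, diaV θ ℂ (d i) (∑ j ∈ s, diaV θ ℂ (d j) v)) = n • ∑ j ∈ s, diaV θ ℂ (d j) v)
    (hann : ∀ t : ↥(heckeAlgebra N' 2 S),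
      (∀ v : ↥(parabolicHoms ℂ (GammaH θ) ℂ), tw t (n • v - ∑ j ∈ s, diaV θ ℂ (d j) v) = 0) →
      χ t = 0) :
    ∃ ι : ↥χ.range →+* ℂ, Function.Injective ι ∧ ∃ (M : ℕ) (g : CuspForm (Gamma0 M) 2),
      M ∣ N * L.prod ∧ g.IsNewform ∧
      (∀ l : PrimesOff S, qCoeff g (l.1 : ℕ) = ι (χ.rangeRestrict (formsGenS N' S l))) ∧
      M.factorization r₀ = 2 := by
  refine exists_newform_of_point_ker θ hθ hodd L hL hnd hdvd hsq θloc pr hpr hprod S hS hNN' dℓ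
    hdℓ tw htw χ hr₀L s hs d hd ?_
  intro t ht
  refine hann t fun v => ht _ ?_
  have h1 : ∀ i ∈ s, diaV θ ℂ (d i) (n • v - ∑ j ∈ s, diaV θ ℂ (d j) v)
      = n • diaV θ ℂ (d i) v - diaV θ ℂ (d i) (∑ j ∈ s, diaV θ ℂ (d j) v) := by
    intro i _
    rw [map_sub, map_zsmul]
  rw [Finset.sum_congr rfl h1, Finset.sum_sub_distrib, he v, ← Finset.smul_sum, sub_self]

end FinalKer

end Fermat.Agent.GB.B5.Point
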