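/-
GATE-B / GB-B5-POINT (helper83): `exists_newform_of_point_idem` with the eigenvalue clause in the
spelling of the consumer (helper41 `S36Plus`): `ι (χ (heckeAlgebra.T hℓ hℓN hℓS)) = a_ℓ(g)` for
every prime `ℓ ∉ S` (`ℓ ∤ N'` automatically), plus `every prime of M divides N`.
-/
import Mathlib
import Fermat.Agent.GB.B5.Point.FinalKer

set_option autoImplicit false
set_option linter.unusedSectionVars false

open scoped MatrixGroups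
open CongruenceSubgroup Matrix Matrix.SpecialLinearGroup ModularCurve ModularCurve.Period
open Fermat.Agent.S16_helper49 Fermat.Agent.GM.B
open Fermat.Agent.GB.B3 Fermat.Agent.GB.B3.EisGamma0 Fermat.Agent.GB.B3.GamH
open Fermat.Agent.GJ.J2.Lat
open Fermat.Agent.GB.B4.Twist.Asm
open Fermat.Agent.GB.B4.Twist.TwFinal
open ModularFormClass CuspForm

namespace Fermat.Agent.GB.B5.Point

section FinalT

variable {N N' : ℕ} [NeZero N] [NeZero N'] {Δ : Type} [CommGroup Δ] [Fintype Δ]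
  (θ : (ZMod N)ˣ →* Δ) (hθ : Function.Surjective θ) (hodd : Odd (Nat.card Δ))
  (L : List ℕ) (hL : ∀ r ∈ L, r.Prime) (hnd : L.Nodup)
  (hdvd : ∀ r ∈ L, r ∣ N) (hsq : ∀ r ∈ L, ¬ r ^ 2 ∣ N)
  (θloc : (r : ℕ) → (ZMod r)ˣ →* Δ) (pr : ℕ → Δ →* Δ)
  (hpr : ∀ r ∈ L, ∀ (h : r ∣ N) (u : (ZMod N)ˣ), pr r (θ u) = θloc r (ZMod.unitsMap h u))
  (hprod : ∀ u : (ZMod N)ˣ, θ u = (L.map fun r => pr r (θ u)).prod)
  (S : Set ℕ) (hS : ∀ q : ℕ, q.Prime → q ∣ N' → q ∈ S) (hNN' : N ∣ N')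
  (dℓ : PrimesOff S → Gamma0 N)
  (hdℓ : ∀ (l : PrimesOff S) (u : (ZMod N)ˣ), (u : ZMod N) = ((l.1 : ℕ) : ZMod N) →
    chi θ (dℓ l) ^ 2 * θ u = 1)
  (tw : ↥(heckeAlgebra N' 2 S) →+* Module.End ℂ ↥(parabolicHoms ℂ (GammaH θ) ℂ))

/-- local instance (Prop-valued class) -/
local instance factPrimeOffB5T {S : Set ℕ} (l : PrimesOff S) : Fact (l.1 : ℕ).Prime := ⟨l.1.2⟩

variable
  (htw : ∀ (l : PrimesOff S) (v : ↥(parabolicHoms ℂ (GammaH θ) ℂ)),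
    ((tw (formsGenS N' S l) v : ↥(parabolicHoms ℂ (GammaH θ) ℂ)) : Additive (GammaH θ) →+ ℂ)
      = diaH θ ℂ (dℓ l) (GamH.TH θ ℂ (not_dvd_level S hS hNN' l)
          (v : Additive (GammaH θ) →+ ℂ)))

include hL hdvd in
/-- every prime of a divisor of `N * L.prod` divides `N` -/
theorem prime_dvd_of_dvd_mul_prod {M : ℕ} (hM : M ∣ N * L.prod) {q : ℕ} (hq : q.Prime)
    (hqM : q ∣ M) : q ∣ N := by
  rcases hq.dvd_mul.mp (hqM.trans hM) with h | h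
  · exact h
  · obtain ⟨r, hr, hqr⟩ := (Prime.dvd_prod_iff hq.prime).mp h
    rw [(Nat.prime_dvd_prime_iff_eq hq (hL r hr)).mp hqr]
    exact hdvd r hr

include hθ hodd hL hnd hdvd hsq hpr hprod hdℓ htw in
/-- **B5-POINT, consumer spelling**: `W₁ := ker e`, `e := ∑_{j ∈ s} ⟨d j⟩`, `e ∘ e = n • e`, `hann`
in transfer form; eigenvalues at `heckeAlgebra.T`. -/
theorem exists_newform_of_point_idem_T {D : Type*} [CommRing D] [IsDomain D] [CharZero D]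
    (χ : ↥(heckeAlgebra N' 2 S) →+* D) {r₀ : ℕ} (hr₀L : r₀ ∈ L)
    {J : Type*} (s : Finset J) (hs : s.Nonempty) (d : J → Gamma0 N)
    (hd : ∀ j ∈ s, chi θ (d j) ∈ (θloc r₀).range) (n : ℤ)
    (he : ∀ v : ↥(parabolicHoms ℂ (GammaH θ) ℂ),
      (∑ i ∈ s, diaV θ ℂ (d i) (∑ j ∈ s, diaV θ ℂ (d j) v)) = n • ∑ j ∈ s, diaV θ ℂ (d j) v)
    (hann : ∀ t : ↥(heckeAlgebra N' 2 S),
      (∀ v : ↥(parabolicHoms ℂ (GammaH θ) ℂ), tw t (n • v - ∑ j ∈ s, diaV θ ℂ (d j) v) = 0) →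
      χ t = 0) :
    ∃ ι : ↥χ.range →+* ℂ, Function.Injective ι ∧ ∃ (M : ℕ) (g : CuspForm (Gamma0 M) 2),
      M ≠ 0 ∧ M ∣ N * L.prod ∧ (∀ q : ℕ, q.Prime → q ∣ M → q ∣ N) ∧ g.IsNewform ∧
      (∀ (ℓ : ℕ) (hℓ : ℓ.Prime) (hℓN : ¬ ℓ ∣ N') (hℓS : ℓ ∉ S),
        ι (χ.rangeRestrict (heckeAlgebra.T hℓ hℓN hℓS)) = qCoeff g ℓ) ∧
      M.factorization r₀ = 2 := by
  obtain ⟨ι, hι, M, g, hM, hg, hgl, hfac⟩ :=
    exists_newform_of_point_idem θ hθ hodd L hL hnd hdvd hsq θloc pr hpr hprod S hS hNN' dℓ hdℓ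
      tw htw χ hr₀L s hs d hd n he hann
  refine ⟨ι, hι, M, g, ?_, hM, fun q hq hqM => prime_dvd_of_dvd_mul_prod L hL hdvd hM hq hqM, hg,
    ?_, hfac⟩
  · intro h0
    rw [h0] at hfac
    simp at hfac
  · intro ℓ hℓ hℓN hℓS
    have h1 := hgl ⟨⟨ℓ, hℓ⟩, hℓS⟩
    rw [formsGenS_of_not_dvd N' S ⟨⟨ℓ, hℓ⟩, hℓS⟩ hℓN] at h1
    exact h1.symm

end FinalT

end Fermat.Agent.GB.B5.Point
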