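/-
GATE-B / GB-B5-POINT, Part C (helper78, spec helper83 6356): **transfer of word identities between
coefficient groups**.

`Γ` a finitely generated group, `Ps ⊆ Γ`, and a family of "natural operators"
`F i K : Hom(Γ, K) →+ Hom(Γ, K)` (`K` any abelian group; e.g. coset-system operators
`CosetSys.op`, diamonds, Hecke operators on `Hom(Γ_H, K)`), natural in `K`
(`F i K' (f ∘ φ) = f ∘ F i K φ`) and preserving `Ps`-parabolicity.  For a word `w : FreeRing ι` let
`ev K w` be the corresponding endomorphism of `Hom(Γ, K)`.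

* `ev_comp`        (C1)  : `ev K' w (f ∘ φ) = f ∘ ev K w φ`;
* `ev_kills`              : `ev K w` preserves `KillsOn Ps`;
* `ev_eq_zero_int_of_inj` : a word killing the parabolic homs with values in `C` (any group into
  which `ℤ` embeds, e.g. `ℂ`) kills the parabolic homs with values in `ℤ`;
* `ev_eq_zero_of_int`     : a word killing the parabolic `ℤ`-valued homs kills the parabolic
  `O`-valued homs for every torsion-free `O`  (`ZStruct.expansion`);
* `ev_eq_zero_of_complex` (C1') : `ℂ ⟹ O`.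
-/
import Mathlib
import Fermat.Agent.GJ.J2.ZStructGen

set_option autoImplicit false
set_option linter.unusedSectionVars false

namespace Fermat.Agent.GB.B5.Point.Transfer

open Fermat.Agent.GJ.J2.ZStruct

noncomputable section

variable {Γ : Type} [Group Γ] (Ps : Set Γ) {ι : Type}

/-- a family of operators on `Hom(Γ, K)`, for every coefficient group `K`. -/
abbrev OpFam (Γ : Type) [Group Γ] (ι : Type) : Type 1 :=
  ι → ∀ (K : Type) [AddCommGroup K], (Additive Γ →+ K) →+ (Additive Γ →+ K)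

/-- naturality in the coefficient group. -/
def IsNat (F : OpFam Γ ι) : Prop :=
  ∀ (i : ι) (K K' : Type) [AddCommGroup K] [AddCommGroup K'] (f : K →+ K') (φ : Additive Γ →+ K),
    F i K' (f.comp φ) = f.comp (F i K φ)

/-- preservation of `Ps`-parabolicity. -/
def IsPar (F : OpFam Γ ι) : Prop :=
  ∀ (i : ι) (K : Type) [AddCommGroup K] (φ : Additive Γ →+ K), KillsOn Ps φ → KillsOn Ps (F i K φ)

/-- `F i K` as an element of the endomorphism ring. -/
def opEnd (F : OpFam Γ ι) (K : Type) [AddCommGroup K] (i : ι) :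
    AddMonoid.End (Additive Γ →+ K) := F i K

/-- evaluation of a word of `FreeRing ι` on `Hom(Γ, K)`. -/
def ev (F : OpFam Γ ι) (K : Type) [AddCommGroup K] :
    FreeRing ι →+* AddMonoid.End (Additive Γ →+ K) :=
  FreeRing.lift (opEnd F K)

theorem ev_of (F : OpFam Γ ι) (K : Type) [AddCommGroup K] (i : ι) (φ : Additive Γ →+ K) :
    ev F K (FreeRing.of i) φ = F i K φ := by
  show (FreeRing.lift (opEnd F K)) (FreeRing.of i) φ = F i K φ
  rw [FreeRing.lift_of]
  rfl

theorem ev_add (F : OpFam Γ ι) (K : Type) [AddCommGroup K] (a b : FreeRing ι)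
    (φ : Additive Γ →+ K) : ev F K (a + b) φ = ev F K a φ + ev F K b φ := by
  rw [map_add]
  rfl

theorem ev_mul (F : OpFam Γ ι) (K : Type) [AddCommGroup K] (a b : FreeRing ι)
    (φ : Additive Γ →+ K) : ev F K (a * b) φ = ev F K a (ev F K b φ) := by
  rw [map_mul]
  rfl

theorem ev_neg_one (F : OpFam Γ ι) (K : Type) [AddCommGroup K]
    (φ : Additive Γ →+ K) : ev F K (-1) φ = -φ := by
  rw [map_neg, map_one]
  rfl

/-- **(C1)** naturality of `ev`. -/
theorem ev_comp {F : OpFam Γ ι} (hnat : IsNat F) (w : FreeRing ι) (K K' : Type)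
    [AddCommGroup K] [AddCommGroup K'] (f : K →+ K') (φ : Additive Γ →+ K) :
    ev F K' w (f.comp φ) = f.comp (ev F K w φ) := by
  induction w using FreeRing.induction_on generalizing φ with
  | hn1 =>
    rw [ev_neg_one, ev_neg_one]
    refine AddMonoidHom.ext fun x => ?_
    show -(f (φ x)) = f (-(φ x))
    rw [map_neg]
  | hb i =>
    rw [ev_of, ev_of]
    exact hnat i K K' f φ
  | ha a b ha hb =>
    rw [ev_add, ev_add, ha, hb]
    refine AddMonoidHom.ext fun x => ?_
    show f (ev F K a φ x) + f (ev F K b φ x) = f (ev F K a φ x + ev F K b φ x)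
    rw [map_add]
  | hm a b ha hb =>
    rw [ev_mul, ev_mul, hb, ha]

/-- `ev` preserves `Ps`-parabolicity. -/
theorem ev_kills {F : OpFam Γ ι} (hpar : IsPar Ps F) (w : FreeRing ι) (K : Type)
    [AddCommGroup K] (φ : Additive Γ →+ K) (hφ : KillsOn Ps φ) : KillsOn Ps (ev F K w φ) := by
  induction w using FreeRing.induction_on generalizing φ with
  | hn1 =>
    intro γ hγ
    rw [ev_neg_one]
    show -(φ (Additive.ofMul γ)) = 0
    rw [hφ γ hγ, neg_zero]
  | hb i =>
    rw [ev_of]
    exact hpar i K φ hφ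
  | ha a b ha hb =>
    intro γ hγ
    rw [ev_add, AddMonoidHom.add_apply, ha φ hφ γ hγ, hb φ hφ γ hγ, add_zero]
  | hm a b ha hb =>
    rw [ev_mul]
    exact ha _ (hb φ hφ)

/-- **`C ⟹ ℤ`**: if `ℤ` embeds into `C` and `w` kills the parabolic `C`-valued homs, it kills the
parabolic `ℤ`-valued ones. -/
theorem ev_eq_zero_int_of_inj {F : OpFam Γ ι} (hnat : IsNat F) (w : FreeRing ι)
    (C : Type) [AddCommGroup C] (j : ℤ →+ C) (hj : Function.Injective j)
    (h : ∀ φ : Additive Γ →+ C, KillsOn Ps φ → ev F C w φ = 0)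
    (φ : Additive Γ →+ ℤ) (hφ : KillsOn Ps φ) : ev F ℤ w φ = 0 := by
  have h1 : KillsOn Ps (j.comp φ) := fun γ hγ => by
    show j (φ (Additive.ofMul γ)) = 0
    rw [hφ γ hγ, map_zero]
  have h2 := h (j.comp φ) h1
  rw [ev_comp hnat] at h2
  refine AddMonoidHom.ext fun x => ?_
  apply hj
  have h3 : j (ev F ℤ w φ x) = 0 := DFunLike.congr_fun h2 x
  rw [h3, AddMonoidHom.zero_apply, map_zero]

variable [Group.FG Γ]

/-- the expansion `φ = ∑ i, (n ↦ n • φ (β i)) ∘ Φ i` of a parabolic hom into a torsion-free group. -/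
theorem eq_sum_smul_comp {O : Type} [AddCommGroup O]
    (hO : ∀ (n : ℤ) (a : O), n ≠ 0 → n • a = 0 → a = 0)
    (φ : Additive Γ →+ O) (hφ : KillsOn Ps φ) :
    φ = ∑ i : Idx Ps, ((smulAddHom ℤ O).flip (φ (betaB Ps i))).comp (PhiB Ps i) := by
  refine AddMonoidHom.ext fun γ => ?_
  rw [expansion Ps hO φ hφ γ, AddMonoidHom.finsetSum_apply]
  rfl

/-- **`ℤ ⟹ O`**: a word killing the parabolic `ℤ`-valued homs kills the parabolic `O`-valued
homs, for every torsion-free `O`. -/
theorem ev_eq_zero_of_int {F : OpFam Γ ι} (hnat : IsNat F) (w : FreeRing ι)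
    (h : ∀ φ : Additive Γ →+ ℤ, KillsOn Ps φ → ev F ℤ w φ = 0)
    {O : Type} [AddCommGroup O] (hO : ∀ (n : ℤ) (a : O), n ≠ 0 → n • a = 0 → a = 0)
    (φ : Additive Γ →+ O) (hφ : KillsOn Ps φ) : ev F O w φ = 0 := by
  rw [eq_sum_smul_comp Ps hO φ hφ, map_sum]
  refine Finset.sum_eq_zero fun i _ => ?_
  rw [ev_comp hnat, h _ (PhiB_kills Ps i), AddMonoidHom.comp_zero]

/-- **(C1')** `ℂ ⟹ O`: a word killing the parabolic `ℂ`-valued homs kills the parabolic
`O`-valued homs, for every torsion-free `O`. -/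
theorem ev_eq_zero_of_complex {F : OpFam Γ ι} (hnat : IsNat F) (w : FreeRing ι)
    (h : ∀ φ : Additive Γ →+ ℂ, KillsOn Ps φ → ev F ℂ w φ = 0)
    {O : Type} [AddCommGroup O] (hO : ∀ (n : ℤ) (a : O), n ≠ 0 → n • a = 0 → a = 0)
    (φ : Additive Γ →+ O) (hφ : KillsOn Ps φ) : ev F O w φ = 0 :=
  ev_eq_zero_of_int Ps hnat w
    (ev_eq_zero_int_of_inj Ps hnat w ℂ (Int.castAddHom ℂ) Int.cast_injective h) hO φ hφ

/-- torsion-freeness of a module over a characteristic-zero domain, in the `ZStruct` spelling. -/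
theorem torsionFree_of_charZero {O M : Type} [CommRing O] [IsDomain O] [CharZero O]
    [AddCommGroup M] [Module O M] [Module.IsTorsionFree O M] :
    ∀ (n : ℤ) (a : M), n ≠ 0 → n • a = 0 → a = 0 := by
  intro n a hn h
  have h1 : ((n : O)) • a = 0 := by
    rw [Int.cast_smul_eq_zsmul]
    exact h
  have hn' : ((n : O)) ≠ 0 := by exact_mod_cast hn
  exact (smul_eq_zero.mp h1).resolve_left hn'

end

end Fermat.Agent.GB.B5.Point.Transfer
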