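/-
GATE-B / GB-B5-POINT, Part C, instance at `Γ_H(θ)` (helper78, spec helper83 6356 (C2)):
**the twisted Hecke action in terms of words, and the `ℂ ⟹ O` transfer of its relations**.

Frame = helper44's `TwFinal` "Operators" block: `tw : heckeAlgebra N' 2 S →+* End_K (Hom_par(Γ_H, K))`
with `tw (T_ℓ) = ⟨dℓ ℓ⟩ ∘ T_ℓ` (`htw`).  Index type `PrimesOff S ⊕ Γ₀(N)`:
`famH (inl l) K = ⟨dℓ l⟩ ∘ T_l`, `famH (inr d) K = ⟨d⟩` on `Hom(Γ_H(θ), K)`.

* `isNat_famH`, `isPar_famH` : naturality in `K`, preservation of parabolic homs;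
* `tw_genHom_eq_ev` (C2) : `tw (genHom P) v = ev K (map inl P) v` for ANY `tw` with `htw`;
* `evV K w` : the word `w` as a map on `Hom_par(Γ_H, K)`; `evV_of_inl`, `evV_of_inr`, `evV_mul`, …;
* `evV_eq_zero_of_complex` : a word killing `Hom_par(Γ_H, ℂ)` kills `Hom_par(Γ_H, O)` (`O` torsion
  free);
* **`tw_sub_sum_dia_eq_zero_of_complex`** : the consumer shape — if
  `tw_ℂ t (n • v − ∑_{j ∈ s} ⟨d j⟩ v) = 0` for all `v ∈ Hom_par(Γ_H, ℂ)` then
  `tw_O t (n • v − ∑_{j ∈ s} ⟨d j⟩ v) = 0` for all `v ∈ Hom_par(Γ_H, O)`.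
-/
import Mathlib
import Fermat.Agent.GB.B5.Point.Transfer
import Fermat.Agent.GB.B4.Twist.TwFinal
import Fermat.Agent.GB.B3.StageGroups

set_option autoImplicit false
set_option linter.unusedSectionVars false

open scoped MatrixGroups
open CongruenceSubgroup Matrix Matrix.SpecialLinearGroup ModularCurve.Period CuspForm
open Fermat.Agent.S16_helper49 Fermat.Agent.GM.B
open Fermat.Agent.GB.B3 Fermat.Agent.GB.B3.EisGamma0 Fermat.Agent.GB.B3.GamH
open Fermat.Agent.GJ.J2.ZStruct Fermat.Agent.GJ.J2.Lat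
open Fermat.Agent.GB.B4.Twist.Asm Fermat.Agent.GB.B4.Twist.TwFinal

namespace Fermat.Agent.GB.B5.Point.Transfer

noncomputable section

/-- local instance (Prop-valued class) -/
local instance factPrimeOffT {S : Set ℕ} (l : PrimesOff S) : Fact (l.1 : ℕ).Prime := ⟨l.1.2⟩

variable {N : ℕ} [NeZero N] {Δ : Type} [CommGroup Δ] (θ : (ZMod N)ˣ →* Δ)
  {N' : ℕ} [NeZero N'] (S : Set ℕ) (hS : ∀ q : ℕ, q.Prime → q ∣ N' → q ∈ S)
  (hNN' : N ∣ N') (dℓ : PrimesOff S → Gamma0 N)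

/-- the parabolic elements of `Γ_H(θ)` -/
def parSet : Set ↥(GammaH θ) :=
  {γ | ((γ : SL(2, ℤ)) : Matrix (Fin 2) (Fin 2) ℤ).trace ^ 2 = 4}

theorem killsOn_parSet_iff {A : Type*} [AddCommGroup A] (φ : Additive ↥(GammaH θ) →+ A) :
    KillsOn (parSet θ) φ ↔ IsParabolicHom (GammaH θ) φ := Iff.rfl

/-- the operator family: `inl l ↦ ⟨dℓ l⟩ ∘ T_l`, `inr d ↦ ⟨d⟩`. -/
def famH : OpFam ↥(GammaH θ) (PrimesOff S ⊕ Gamma0 N) := fun i K _ =>
  match i with
  | Sum.inl l => (diaH θ K (dℓ l)).comp (GamH.TH θ K (not_dvd_level S hS hNN' l))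
  | Sum.inr d => diaH θ K d

theorem famH_inl (l : PrimesOff S) (K : Type) [AddCommGroup K]
    (φ : Additive ↥(GammaH θ) →+ K) :
    famH θ S hS hNN' dℓ (Sum.inl l) K φ
      = diaH θ K (dℓ l) (GamH.TH θ K (not_dvd_level S hS hNN' l) φ) := rfl

theorem famH_inr (d : Gamma0 N) (K : Type) [AddCommGroup K]
    (φ : Additive ↥(GammaH θ) →+ K) :
    famH θ S hS hNN' dℓ (Sum.inr d) K φ = diaH θ K d φ := rfl

theorem isNat_famH : IsNat (famH θ S hS hNN' dℓ) := by
  intro i K K' _ _ f φ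
  cases i with
  | inl l =>
    rw [famH_inl, famH_inl]
    have h1 : GamH.TH θ K' (not_dvd_level S hS hNN' l) (f.comp φ)
        = f.comp (GamH.TH θ K (not_dvd_level S hS hNN' l) φ) :=
      CosetSys.op_comp_hom _ f φ
    rw [h1]
    exact CosetSys.op_comp_hom _ f _
  | inr d =>
    rw [famH_inr, famH_inr]
    exact CosetSys.op_comp_hom _ f φ

theorem isPar_famH : IsPar (parSet θ) (famH θ S hS hNN' dℓ) := by
  intro i K _ φ hφ
  rw [killsOn_parSet_iff] at hφ ⊢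
  cases i with
  | inl l =>
    rw [famH_inl]
    exact op_isParabolicHom _ _ (op_isParabolicHom _ φ hφ)
  | inr d =>
    rw [famH_inr]
    exact op_isParabolicHom _ φ hφ

/-! ### words acting on the parabolic classes -/

section Words

variable (K : Type) [CommRing K]

/-- the word `w` as a self-map of `Hom_par(Γ_H, K)`. -/
def evV (w : FreeRing (PrimesOff S ⊕ Gamma0 N)) (v : ↥(parabolicHoms K (GammaH θ) K)) :
    ↥(parabolicHoms K (GammaH θ) K) :=
  ⟨ev (famH θ S hS hNN' dℓ) K w (v : Additive ↥(GammaH θ) →+ K),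
    (killsOn_parSet_iff θ _).mp
      (ev_kills (parSet θ) (isPar_famH θ S hS hNN' dℓ) w K _ ((killsOn_parSet_iff θ _).mpr v.2))⟩

theorem coe_evV (w : FreeRing (PrimesOff S ⊕ Gamma0 N)) (v : ↥(parabolicHoms K (GammaH θ) K)) :
    ((evV θ S hS hNN' dℓ K w v : ↥(parabolicHoms K (GammaH θ) K)) :
        Additive ↥(GammaH θ) →+ K)
      = ev (famH θ S hS hNN' dℓ) K w (v : Additive ↥(GammaH θ) →+ K) := rfl

theorem evV_of_inr (d : Gamma0 N) (v : ↥(parabolicHoms K (GammaH θ) K)) :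
    evV θ S hS hNN' dℓ K (FreeRing.of (Sum.inr d)) v = diaV θ K d v := by
  apply Subtype.ext
  rw [coe_evV, ev_of, famH_inr, coe_diaV]

theorem evV_add (a b : FreeRing (PrimesOff S ⊕ Gamma0 N))
    (v : ↥(parabolicHoms K (GammaH θ) K)) :
    evV θ S hS hNN' dℓ K (a + b) v = evV θ S hS hNN' dℓ K a v + evV θ S hS hNN' dℓ K b v := by
  apply Subtype.ext
  rw [coe_evV, ev_add]
  rfl

theorem evV_mul (a b : FreeRing (PrimesOff S ⊕ Gamma0 N))
    (v : ↥(parabolicHoms K (GammaH θ) K)) :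
    evV θ S hS hNN' dℓ K (a * b) v = evV θ S hS hNN' dℓ K a (evV θ S hS hNN' dℓ K b v) := by
  apply Subtype.ext
  rw [coe_evV, ev_mul]
  rfl

theorem evV_neg (a : FreeRing (PrimesOff S ⊕ Gamma0 N))
    (v : ↥(parabolicHoms K (GammaH θ) K)) :
    evV θ S hS hNN' dℓ K (-a) v = -evV θ S hS hNN' dℓ K a v := by
  apply Subtype.ext
  rw [coe_evV, map_neg]
  rfl

theorem evV_sub (a b : FreeRing (PrimesOff S ⊕ Gamma0 N))
    (v : ↥(parabolicHoms K (GammaH θ) K)) :
    evV θ S hS hNN' dℓ K (a - b) v = evV θ S hS hNN' dℓ K a v - evV θ S hS hNN' dℓ K b v := by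
  rw [sub_eq_add_neg, evV_add, evV_neg, sub_eq_add_neg]

theorem evV_one (v : ↥(parabolicHoms K (GammaH θ) K)) :
    evV θ S hS hNN' dℓ K 1 v = v := by
  apply Subtype.ext
  rw [coe_evV, map_one]
  rfl

theorem evV_intCast (n : ℤ) (v : ↥(parabolicHoms K (GammaH θ) K)) :
    evV θ S hS hNN' dℓ K (n : FreeRing (PrimesOff S ⊕ Gamma0 N)) v = n • v := by
  apply Subtype.ext
  rw [coe_evV, map_intCast]
  rfl

theorem evV_sum {J : Type} (s : Finset J) (a : J → FreeRing (PrimesOff S ⊕ Gamma0 N))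
    (v : ↥(parabolicHoms K (GammaH θ) K)) :
    evV θ S hS hNN' dℓ K (∑ j ∈ s, a j) v = ∑ j ∈ s, evV θ S hS hNN' dℓ K (a j) v := by
  classical
  induction s using Finset.induction_on with
  | empty =>
    rw [Finset.sum_empty, Finset.sum_empty]
    apply Subtype.ext
    rw [coe_evV, map_zero]
    rfl
  | insert j s hj ih =>
    rw [Finset.sum_insert hj, Finset.sum_insert hj, evV_add, ih]

variable (tw : ↥(heckeAlgebra N' 2 S) →+* Module.End K ↥(parabolicHoms K (GammaH θ) K))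
  (htw : ∀ (l : PrimesOff S) (v : ↥(parabolicHoms K (GammaH θ) K)),
    ((tw (formsGenS N' S l) v : ↥(parabolicHoms K (GammaH θ) K)) : Additive (GammaH θ) →+ K)
      = diaH θ K (dℓ l) (GamH.TH θ K (not_dvd_level S hS hNN' l)
          (v : Additive (GammaH θ) →+ K)))

include htw in
/-- **(C2)** the twisted Hecke action of `genHom P` is the word `map inl P`. -/
theorem tw_genHom_eq_evV (P : FreeRing (PrimesOff S)) (v : ↥(parabolicHoms K (GammaH θ) K)) :
    tw (Fermat.Agent.GB.B4.Twist.Coeff.genHom N' S P) v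
      = evV θ S hS hNN' dℓ K (FreeRing.map Sum.inl P) v := by
  induction P using FreeRing.induction_on generalizing v with
  | hn1 =>
    rw [map_neg, map_neg, map_one, map_one, map_neg, map_one, evV_neg, evV_one]
    rfl
  | hb l =>
    apply Subtype.ext
    rw [Fermat.Agent.GB.B4.Twist.Coeff.genHom_of, htw, FreeRing.map_of, coe_evV, ev_of, famH_inl]
  | ha a b ha hb =>
    rw [map_add, map_add, map_add, LinearMap.add_apply, ha, hb, evV_add]
  | hm a b ha hb =>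
    rw [map_mul, map_mul, map_mul, Module.End.mul_apply, hb, ha, evV_mul]

include htw in
/-- (C2) in the coerced form of helper83's spec. -/
theorem tw_genHom_eq_ev (P : FreeRing (PrimesOff S)) (v : ↥(parabolicHoms K (GammaH θ) K)) :
    ((tw (Fermat.Agent.GB.B4.Twist.Coeff.genHom N' S P) v : ↥(parabolicHoms K (GammaH θ) K)) :
        Additive (GammaH θ) →+ K)
      = ev (famH θ S hS hNN' dℓ) K (FreeRing.map Sum.inl P) (v : Additive (GammaH θ) →+ K) := by
  rw [tw_genHom_eq_evV θ S hS hNN' dℓ K tw htw P v, coe_evV]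

end Words

/-! ### the transfer `ℂ ⟹ O` -/

/-- **(C1') at `Γ_H`**: a word killing `Hom_par(Γ_H, ℂ)` kills `Hom_par(Γ_H, O)`. -/
theorem evV_eq_zero_of_complex (w : FreeRing (PrimesOff S ⊕ Gamma0 N))
    (h : ∀ v : ↥(parabolicHoms ℂ (GammaH θ) ℂ), evV θ S hS hNN' dℓ ℂ w v = 0)
    {O : Type} [CommRing O] (hO : ∀ (n : ℤ) (a : O), n ≠ 0 → n • a = 0 → a = 0)
    (v : ↥(parabolicHoms O (GammaH θ) O)) : evV θ S hS hNN' dℓ O w v = 0 := by
  have : Group.FG ↥(GammaH θ) := StageGroups.fg_GammaH θ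
  apply Subtype.ext
  rw [coe_evV]
  refine ev_eq_zero_of_complex (parSet θ) (isNat_famH θ S hS hNN' dℓ) w ?_ hO _
    ((killsOn_parSet_iff θ _).mpr v.2)
  intro φ hφ
  have h1 := congrArg Subtype.val (h ⟨φ, (killsOn_parSet_iff θ φ).mp hφ⟩)
  exact h1

/-- **the consumer shape**: a relation `tw_ℂ t ∘ (n − ∑_{j ∈ s} ⟨d j⟩) = 0` on `Hom_par(Γ_H, ℂ)`
descends to `tw_O t ∘ (n − ∑_{j ∈ s} ⟨d j⟩) = 0` on `Hom_par(Γ_H, O)`, for ANY two twist
homomorphisms satisfying the generator formula `htw`. -/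
theorem tw_sub_sum_dia_eq_zero_of_complex
    (twC : ↥(heckeAlgebra N' 2 S) →+* Module.End ℂ ↥(parabolicHoms ℂ (GammaH θ) ℂ))
    (htwC : ∀ (l : PrimesOff S) (v : ↥(parabolicHoms ℂ (GammaH θ) ℂ)),
      ((twC (formsGenS N' S l) v : ↥(parabolicHoms ℂ (GammaH θ) ℂ)) : Additive (GammaH θ) →+ ℂ)
        = diaH θ ℂ (dℓ l) (GamH.TH θ ℂ (not_dvd_level S hS hNN' l)
            (v : Additive (GammaH θ) →+ ℂ)))
    {O : Type} [CommRing O] (hO : ∀ (n : ℤ) (a : O), n ≠ 0 → n • a = 0 → a = 0)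
    (twO : ↥(heckeAlgebra N' 2 S) →+* Module.End O ↥(parabolicHoms O (GammaH θ) O))
    (htwO : ∀ (l : PrimesOff S) (v : ↥(parabolicHoms O (GammaH θ) O)),
      ((twO (formsGenS N' S l) v : ↥(parabolicHoms O (GammaH θ) O)) : Additive (GammaH θ) →+ O)
        = diaH θ O (dℓ l) (GamH.TH θ O (not_dvd_level S hS hNN' l)
            (v : Additive (GammaH θ) →+ O)))
    (t : ↥(heckeAlgebra N' 2 S)) {J : Type} (s : Finset J) (d : J → Gamma0 N) (n : ℤ)
    (h : ∀ v : ↥(parabolicHoms ℂ (GammaH θ) ℂ),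
      twC t (n • v - ∑ j ∈ s, diaV θ ℂ (d j) v) = 0)
    (v : ↥(parabolicHoms O (GammaH θ) O)) :
    twO t (n • v - ∑ j ∈ s, diaV θ O (d j) v) = 0 := by
  obtain ⟨P, rfl⟩ := Fermat.Agent.GB.B4.Twist.Coeff.genHom_surjective N' S t
  set w : FreeRing (PrimesOff S ⊕ Gamma0 N) :=
    FreeRing.map Sum.inl P * ((n : FreeRing (PrimesOff S ⊕ Gamma0 N))
      - ∑ j ∈ s, FreeRing.of (Sum.inr (d j))) with hw
  have key : ∀ (K : Type) [CommRing K]
      (tw : ↥(heckeAlgebra N' 2 S) →+* Module.End K ↥(parabolicHoms K (GammaH θ) K))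
      (_ : ∀ (l : PrimesOff S) (v : ↥(parabolicHoms K (GammaH θ) K)),
        ((tw (formsGenS N' S l) v : ↥(parabolicHoms K (GammaH θ) K)) : Additive (GammaH θ) →+ K)
          = diaH θ K (dℓ l) (GamH.TH θ K (not_dvd_level S hS hNN' l)
              (v : Additive (GammaH θ) →+ K)))
      (v : ↥(parabolicHoms K (GammaH θ) K)),
      tw (Fermat.Agent.GB.B4.Twist.Coeff.genHom N' S P) (n • v - ∑ j ∈ s, diaV θ K (d j) v)
        = evV θ S hS hNN' dℓ K w v := by
    intro K _ tw htw v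
    rw [hw, evV_mul, evV_sub, evV_intCast, evV_sum,
      tw_genHom_eq_evV θ S hS hNN' dℓ K tw htw P]
    congr 2
    refine Finset.sum_congr rfl fun j _ => ?_
    rw [evV_of_inr]
  rw [key O twO htwO v]
  refine evV_eq_zero_of_complex θ S hS hNN' dℓ w (fun v' => ?_) hO v
  rw [← key ℂ twC htwC v']
  exact h v'

end

end Fermat.Agent.GB.B5.Point.Transfer
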