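/-
GATE-B / GB-B5-POINT, Part C, last link (helper78): **the group-sum of diamonds is a
quasi-idempotent, hence `hann` on `ker e` transfers from `ℂ` to `O`**.

`d : J → Γ₀(N)` a finite family whose classes `χ_θ (d j)` are permuted by multiplication with each
of them (e.g. representatives of a finite subgroup `H ≤ Δ`).  On `Hom_par(Γ_H(θ), K)` put
`e := ∑ j, ⟨d j⟩`.  Then `⟨d j₀⟩ ∘ e = e`, `e ∘ e = |J| • e`, so `(|J| − e) v ∈ ker e` for all `v`.

* `diaV_mul`, `diaV_congr` : the diamond operators on the parabolic classes;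
* `diaV_sum_eq` , `sum_diaV_sub_eq_zero` : the two identities above;
* `tw_relation_of_ker` : `(∀ w, e w = 0 → T w = 0) → ∀ v, T (|J| • v − e v) = 0`, any additive `T`;
* **`tw_relation_of_ker_complex`** : for two twist homomorphisms `twC`, `twO` with the generator
  formula `htw`: `(∀ w ∈ V_ℂ, e w = 0 → twC t w = 0) → ∀ v ∈ V_O, twO t (|J| • v − e v) = 0`
  (= `DiaIdem` ∘ `TransferH.tw_sub_sum_dia_eq_zero_of_complex`); feed it to
  `GB/B5/Glue/HannAbs.mem_of_transfer`;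
* `perm_of_subgroup` : the permutation hypothesis for representatives of a finite subgroup of `Δ`.
-/
import Mathlib
import Fermat.Agent.GB.B5.Point.TransferH
import Fermat.Agent.GB.B4.Twist.DiaRep

set_option autoImplicit false
set_option linter.unusedSectionVars false

open scoped MatrixGroups
open CongruenceSubgroup Matrix Matrix.SpecialLinearGroup ModularCurve.Period CuspForm
open Fermat.Agent.S16_helper49 Fermat.Agent.GM.B
open Fermat.Agent.GB.B3 Fermat.Agent.GB.B3.EisGamma0 Fermat.Agent.GB.B3.GamH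
open Fermat.Agent.GJ.J2.ZStruct Fermat.Agent.GJ.J2.Lat
open Fermat.Agent.GB.B4.Twist.Asm Fermat.Agent.GB.B4.Twist.TwFinal

namespace Fermat.Agent.GB.B5.Point.Transfer

noncomputable section

variable {N : ℕ} {Δ : Type} [CommGroup Δ] (θ : (ZMod N)ˣ →* Δ)

section Dia

variable (K : Type*) [CommRing K]

theorem diaV_congr (d d' : Gamma0 N) (hd : chi θ d = chi θ d')
    (v : ↥(parabolicHoms K (GammaH θ) K)) : diaV θ K d v = diaV θ K d' v := by
  apply Subtype.ext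
  rw [coe_diaV, coe_diaV]
  exact diaH_congr θ d d' hd _

theorem diaV_mul (d d' : Gamma0 N) (v : ↥(parabolicHoms K (GammaH θ) K)) :
    diaV θ K d (diaV θ K d' v) = diaV θ K (d' * d) v := by
  apply Subtype.ext
  rw [coe_diaV, coe_diaV, coe_diaV, ← diaH_mul]

variable {J : Type} [Fintype J] (d : J → Gamma0 N)
  (hperm : ∀ j₀ : J, ∃ σ : Equiv.Perm J, ∀ j, chi θ (d j * d j₀) = chi θ (d (σ j)))

include hperm in
/-- `⟨d j₀⟩ ∘ e = e`. -/
theorem diaV_sum_eq (j₀ : J) (v : ↥(parabolicHoms K (GammaH θ) K)) :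
    diaV θ K (d j₀) (∑ j, diaV θ K (d j) v) = ∑ j, diaV θ K (d j) v := by
  obtain ⟨σ, hσ⟩ := hperm j₀
  rw [map_sum]
  have h1 : ∀ j, diaV θ K (d j₀) (diaV θ K (d j) v) = diaV θ K (d (σ j)) v := fun j => by
    rw [diaV_mul]
    exact diaV_congr θ K _ _ (hσ j) v
  rw [Finset.sum_congr rfl fun j _ => h1 j]
  exact Equiv.sum_comp σ fun j => diaV θ K (d j) v

include hperm in
/-- `e ∘ (|J| − e) = 0`. -/
theorem sum_diaV_sub_eq_zero (v : ↥(parabolicHoms K (GammaH θ) K)) :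
    ∑ j, diaV θ K (d j) (((Fintype.card J : ℕ) : ℤ) • v - ∑ j', diaV θ K (d j') v) = 0 := by
  have h1 : ∀ j, diaV θ K (d j) (((Fintype.card J : ℕ) : ℤ) • v - ∑ j', diaV θ K (d j') v)
      = ((Fintype.card J : ℕ) : ℤ) • diaV θ K (d j) v - ∑ j', diaV θ K (d j') v := fun j => by
    rw [map_sub, map_zsmul, diaV_sum_eq θ K d hperm j v]
  rw [Finset.sum_congr rfl fun j _ => h1 j, Finset.sum_sub_distrib, Finset.sum_const,
    Finset.card_univ, ← Finset.smul_sum, natCast_zsmul, sub_self]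

include hperm in
/-- an additive map killing `ker e` kills `(|J| − e) V`. -/
theorem tw_relation_of_ker {X : Type*} [AddCommGroup X]
    (T : ↥(parabolicHoms K (GammaH θ) K) →+ X)
    (h : ∀ w : ↥(parabolicHoms K (GammaH θ) K), ∑ j, diaV θ K (d j) w = 0 → T w = 0)
    (v : ↥(parabolicHoms K (GammaH θ) K)) :
    T (((Fintype.card J : ℕ) : ℤ) • v - ∑ j, diaV θ K (d j) v) = 0 :=
  h _ (sum_diaV_sub_eq_zero θ K d hperm v)

end Dia

/-- the permutation hypothesis for representatives of a finite subgroup `H ≤ Δ`. -/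
theorem perm_of_subgroup (H : Subgroup Δ) (rep : ↥H → Gamma0 N)
    (hrep : ∀ δ : ↥H, chi θ (rep δ) = (δ : Δ)) (δ₀ : ↥H) :
    ∃ σ : Equiv.Perm ↥H, ∀ δ, chi θ (rep δ * rep δ₀) = chi θ (rep (σ δ)) := by
  refine ⟨Equiv.mulRight δ₀, fun δ => ?_⟩
  rw [map_mul, hrep, hrep, hrep]
  rfl

/-! ### the `ℂ ⟹ O` transfer of `hann` on `ker e` -/

variable [NeZero N] {N' : ℕ} [NeZero N'] (S : Set ℕ) (hS : ∀ q : ℕ, q.Prime → q ∣ N' → q ∈ S)
  (hNN' : N ∣ N') (dℓ : PrimesOff S → Gamma0 N)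

/-- local instance (Prop-valued class) -/
local instance factPrimeOffD {S : Set ℕ} (l : PrimesOff S) : Fact (l.1 : ℕ).Prime := ⟨l.1.2⟩

/-- **`hann` on `ker e` transfers from `ℂ` to `O`**: if `twC t` kills the kernel of
`e = ∑ j, ⟨d j⟩` on `Hom_par(Γ_H, ℂ)`, then `twO t ∘ (|J| − e) = 0` on `Hom_par(Γ_H, O)`. -/
theorem tw_relation_of_ker_complex
    (twC : ↥(heckeAlgebra N' 2 S) →+* Module.End ℂ ↥(parabolicHoms ℂ (GammaH θ) ℂ))
    (htwC : ∀ (l : PrimesOff S) (v : ↥(parabolicHoms ℂ (GammaH θ) ℂ)),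
      ((twC (formsGenS N' S l) v : ↥(parabolicHoms ℂ (GammaH θ) ℂ)) : Additive (GammaH θ) →+ ℂ)
        = diaH θ ℂ (dℓ l) (GamH.TH θ ℂ (not_dvd_level S hS hNN' l)
            (v : Additive (GammaH θ) →+ ℂ)))
    {O : Type} [CommRing O] (hO : ∀ (n : ℤ) (a : O), n ≠ 0 → n • a = 0 → a = 0)
    (twO : ↥(heckeAlgebra N' 2 S) →+* Module.End O ↥(parabolicHoms O (GammaH θ) O))
    (htwO : ∀ (l : PrimesOff S) (v : ↥(parabolicHoms O (GammaH θ) O)),
      ((twO (formsGenS N' S l) v : ↥(parabolicHoms O (GammaH θ) O)) : Additive (GammaH θ) →+ O)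
        = diaH θ O (dℓ l) (GamH.TH θ O (not_dvd_level S hS hNN' l)
            (v : Additive (GammaH θ) →+ O)))
    (t : ↥(heckeAlgebra N' 2 S)) {J : Type} [Fintype J] (d : J → Gamma0 N)
    (hperm : ∀ j₀ : J, ∃ σ : Equiv.Perm J, ∀ j, chi θ (d j * d j₀) = chi θ (d (σ j)))
    (h : ∀ w : ↥(parabolicHoms ℂ (GammaH θ) ℂ), ∑ j, diaV θ ℂ (d j) w = 0 → twC t w = 0)
    (v : ↥(parabolicHoms O (GammaH θ) O)) :
    twO t (((Fintype.card J : ℕ) : ℤ) • v - ∑ j, diaV θ O (d j) v) = 0 :=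
  tw_sub_sum_dia_eq_zero_of_complex θ S hS hNN' dℓ twC htwC hO twO htwO t Finset.univ d _
    (fun v' => tw_relation_of_ker θ ℂ d hperm (twC t : _ →ₗ[ℂ] _).toAddMonoidHom h v') v

end

end Fermat.Agent.GB.B5.Point.Transfer
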