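/-
GATE-B / GB-B5 (helper83): **B5 at a point, Galois form** = `FinalT.exists_newform_of_point_idem_T`
∘ helper41 `S36Plus.not_isUnipotentOnInertiaAt_of_newform`.

Frame: helper44's `TwFinal` Main block at `ℂ` with `S := ↑(S : Finset ℕ)`.  Input: a point
`χ : heckeAlgebra N' 2 S →+* O'` (`O'` a complete DVR of characteristic `0`, finite residue field of
characteristic `lam ≠ 2`), `hann` in transfer form for `W₁ := ker (∑_{j ∈ s} ⟨d j⟩)` at `r₀ ∈ L`,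
`r₀ ≠ lam`, and a Galois representation `ρ` over `O'` with the Frobenius characteristic polynomials
of `χ` outside `S`.  Output: `ρ` is NOT unipotent on the inertia at `r₀`.
-/
import Mathlib
import Fermat.Agent.GB.B5.Point.FinalT
import Fermat.Agent.GB.B5.S36Plus

set_option autoImplicit false
set_option linter.unusedSectionVars false

open scoped MatrixGroups
open CongruenceSubgroup Matrix Matrix.SpecialLinearGroup ModularCurve ModularCurve.Period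
open Fermat.Agent.S16_helper49 Fermat.Agent.GM.B
open Fermat.Agent.GB.B3 Fermat.Agent.GB.B3.EisGamma0 Fermat.Agent.GB.B3.GamH
open Fermat.Agent.GJ.J2.Lat
open Fermat.Agent.GB.B4.Twist.Asm
open Fermat.Agent.GB.B4.Twist.TwFinal
open ModularFormClass CuspForm Polynomial

namespace Fermat.Agent.GB.B5.Point

section NotUnip

variable {N N' : ℕ} [NeZero N] [NeZero N'] {Δ : Type} [CommGroup Δ] [Fintype Δ]
  (θ : (ZMod N)ˣ →* Δ) (hθ : Function.Surjective θ) (hodd : Odd (Nat.card Δ))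
  (L : List ℕ) (hL : ∀ r ∈ L, r.Prime) (hnd : L.Nodup)
  (hdvd : ∀ r ∈ L, r ∣ N) (hsq : ∀ r ∈ L, ¬ r ^ 2 ∣ N)
  (θloc : (r : ℕ) → (ZMod r)ˣ →* Δ) (pr : ℕ → Δ →* Δ)
  (hpr : ∀ r ∈ L, ∀ (h : r ∣ N) (u : (ZMod N)ˣ), pr r (θ u) = θloc r (ZMod.unitsMap h u))
  (hprod : ∀ u : (ZMod N)ˣ, θ u = (L.map fun r => pr r (θ u)).prod)
  (S : Finset ℕ) (hS : ∀ q : ℕ, q.Prime → q ∣ N' → q ∈ (↑S : Set ℕ)) (hNN' : N ∣ N')
  (dℓ : PrimesOff (↑S : Set ℕ) → Gamma0 N)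
  (hdℓ : ∀ (l : PrimesOff (↑S : Set ℕ)) (u : (ZMod N)ˣ),
    (u : ZMod N) = ((l.1 : ℕ) : ZMod N) → chi θ (dℓ l) ^ 2 * θ u = 1)
  (tw : ↥(heckeAlgebra N' 2 (↑S : Set ℕ)) →+*
    Module.End ℂ ↥(parabolicHoms ℂ (GammaH θ) ℂ))

/-- local instance (Prop-valued class) -/
local instance factPrimeOffB5N {S : Set ℕ} (l : PrimesOff S) : Fact (l.1 : ℕ).Prime := ⟨l.1.2⟩

variable
  (htw : ∀ (l : PrimesOff (↑S : Set ℕ)) (v : ↥(parabolicHoms ℂ (GammaH θ) ℂ)),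
    ((tw (formsGenS N' (↑S : Set ℕ) l) v : ↥(parabolicHoms ℂ (GammaH θ) ℂ)) :
        Additive (GammaH θ) →+ ℂ)
      = diaH θ ℂ (dℓ l) (GamH.TH θ ℂ (not_dvd_level (↑S : Set ℕ) hS hNN' l)
          (v : Additive (GammaH θ) →+ ℂ)))

include hθ hodd hL hnd hdvd hsq hpr hprod hdℓ htw in
/-- **B5 at a point, Galois form.** -/
theorem not_isUnipotentOnInertiaAt_of_point
    (lam : ℕ) [Fact lam.Prime] (hlam2 : lam ≠ 2)
    (O' : Type) [CommRing O'] [IsDomain O'] [IsDiscreteValuationRing O']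
    [IsAdicComplete (IsLocalRing.maximalIdeal O') O'] [Finite (IsLocalRing.ResidueField O')]
    [CharZero O'] (hlamO' : (lam : O') ∈ IsLocalRing.maximalIdeal O') (hlamS : lam ∈ S)
    (χ : ↥(heckeAlgebra N' 2 (↑S : Set ℕ)) →+* O') {r₀ : ℕ} (hr₀L : r₀ ∈ L) (hr₀lam : r₀ ≠ lam)
    {J : Type*} (s : Finset J) (hs : s.Nonempty) (d : J → Gamma0 N)
    (hd : ∀ j ∈ s, chi θ (d j) ∈ (θloc r₀).range) (n : ℤ)
    (he : ∀ v : ↥(parabolicHoms ℂ (GammaH θ) ℂ),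
      (∑ i ∈ s, diaV θ ℂ (d i) (∑ j ∈ s, diaV θ ℂ (d j) v)) = n • ∑ j ∈ s, diaV θ ℂ (d j) v)
    (hann : ∀ t : ↥(heckeAlgebra N' 2 (↑S : Set ℕ)),
      (∀ v : ↥(parabolicHoms ℂ (GammaH θ) ℂ), tw t (n • v - ∑ j ∈ s, diaV θ ℂ (d j) v) = 0) →
      χ t = 0)
    (ρ : GaloisRepAdic O')
    (hρ : ∀ (ℓ : ℕ) (hℓ : ℓ.Prime) (hℓN : ¬ ℓ ∣ N') (hℓS : ℓ ∉ (↑S : Set ℕ)),
      ∀ A : ValuationSubring (AlgebraicClosure ℚ), A.LiesOverPrime ℓ →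
        ∀ σ : (AlgebraicClosure ℚ ≃ₐ[ℚ] AlgebraicClosure ℚ), A.IsFrobeniusAt σ ℓ →
        LinearMap.charpoly (ρ.ρ σ) =
          X ^ 2 - C (χ (CuspForm.heckeAlgebra.T hℓ hℓN hℓS)) * X + C ((ℓ : O'))) :
    ¬ ρ.IsUnipotentOnInertiaAt r₀ := by
  obtain ⟨ι, hι, M, g, hM0, -, hMN, hg, hgl, hfac⟩ :=
    exists_newform_of_point_idem_T θ hθ hodd L hL hnd hdvd hsq θloc pr hpr hprod (↑S : Set ℕ) hS
      hNN' dℓ hdℓ tw htw χ hr₀L s hs d hd n he hann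
  haveI : NeZero M := ⟨hM0⟩
  exact Fermat.Agent.GB.B5.S36Plus.not_isUnipotentOnInertiaAt_of_newform lam hlam2 S O' hlamO'
    hlamS hS χ ι hι (fun q hq hqM => hS q hq ((hMN q hq hqM).trans hNN')) hg hgl r₀ (hL r₀ hr₀L)
    hr₀lam hfac ρ hρ

end NotUnip

end Fermat.Agent.GB.B5.Point
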